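import Mathlib
import Fermat.Prelude.Def_AlgebraicCurve_DivisorClassGroup

/-!
# RED / ES : the uniqueness principle (Lemma U)

Two homomorphisms `Div F → Div Fb` which send places to effective divisors of the same size and
agree on principal divisors are equal, as soon as `F` satisfies a Riemann type hypothesis.
-/

set_option autoImplicit false

open AlgebraicCurve

namespace Fermat.Agent.RED.ES

noncomputable section

variable {L F : Type*} [Field L] [Field F] [Algebra L F]

/-- The number of points of a divisor, counted with multiplicity. -/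
def cnt : Divisor L F →+ ℤ := Finsupp.liftAddHom fun _ => AddMonoidHom.id ℤ

@[simp] theorem cnt_single (P : Place L F) (n : ℤ) : cnt (Finsupp.single P n) = n := by
  simp [cnt]

theorem cnt_eq_sum (D : Divisor L F) : cnt D = D.sum fun _ n => n := by
  simp only [cnt, Finsupp.liftAddHom_apply]
  rfl

theorem cnt_eq_degree (hdeg : ∀ P : Place L F, P.deg = 1) (D : Divisor L F) :
    cnt D = Divisor.degree D := by
  induction D using Finsupp.induction_linear with
  | zero => simp
  | add D E hD hE => rw [map_add, map_add, hD, hE]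
  | single P n => simp [hdeg P]

theorem hom_eq_sum (χ : Divisor L F →+ ℤ) (D : Divisor L F) :
    χ D = D.sum fun P n => n * χ (Finsupp.single P 1) := by
  induction D using Finsupp.induction_linear with
  | zero => simp
  | add D E hD hE =>
    rw [map_add, hD, hE, Finsupp.sum_add_index' (by simp) (by intro P a b; ring)]
  | single P n =>
    rw [Finsupp.sum_single_index (by simp)]
    have : Finsupp.single P n = n • Finsupp.single P (1 : ℤ) := by simp
    rw [this, map_zsmul, smul_eq_mul]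

/-- A bounded homomorphism is bounded on effective divisors by the number of points. -/
theorem abs_hom_le (χ : Divisor L F →+ ℤ) (C : ℤ)
    (hC : ∀ P : Place L F, |χ (Finsupp.single P 1)| ≤ C) {E : Divisor L F} (hE : 0 ≤ E) :
    |χ E| ≤ C * cnt E := by
  rw [hom_eq_sum χ E, cnt_eq_sum, Finsupp.sum, Finsupp.sum, Finset.mul_sum]
  refine (Finset.abs_sum_le_sum_abs _ _).trans (Finset.sum_le_sum fun P _ => ?_)
  have h0 : 0 ≤ E P := hE P
  rw [abs_mul, abs_of_nonneg h0, mul_comm]
  exact mul_le_mul_of_nonneg_right (hC P) h0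

/-- The Riemann type hypothesis: every divisor with `cnt = 0` becomes equivalent to an effective
divisor after adding `g • P₀`. -/
def HasEffRep (L F : Type*) [Field L] [Field F] [Algebra L F] (g : ℕ) (P₀ : Place L F) : Prop :=
  ∀ D : Divisor L F, cnt D = 0 → ∃ E : Divisor L F, 0 ≤ E ∧
    D + Finsupp.single P₀ (g : ℤ) - E ∈ Divisor.principal (K := L) (F := F)

/-- (BH) a bounded homomorphism `Div F → ℤ` which kills principal divisors and for which
principal divisors have `cnt = 0` takes the same value on all places. -/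
theorem hom_const_of_bounded {g : ℕ} {P₀ : Place L F} (h2 : HasEffRep L F g P₀)
    (hprin : ∀ D ∈ Divisor.principal (K := L) (F := F), cnt D = 0)
    (χ : Divisor L F →+ ℤ) (hχ : ∀ D ∈ Divisor.principal (K := L) (F := F), χ D = 0)
    (C : ℤ) (hC : ∀ P : Place L F, |χ (Finsupp.single P 1)| ≤ C) (P P' : Place L F) :
    χ (Finsupp.single P 1) = χ (Finsupp.single P' 1) := by
  set δ : ℤ := χ (Finsupp.single P 1) - χ (Finsupp.single P' 1) with hδ
  have hC0 : 0 ≤ C := (abs_nonneg _).trans (hC P)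
  have key : ∀ n : ℕ, |(n : ℤ) * δ| ≤ 2 * (C * g) := by
    intro n
    set D : Divisor L F := (n : ℤ) • (Finsupp.single P 1 - Finsupp.single P' 1) with hD
    have hD0 : cnt D = 0 := by simp [hD]
    obtain ⟨E, hE, hpr⟩ := h2 D hD0
    have h1 := hχ _ hpr
    have h3 := hprin _ hpr
    rw [map_sub, map_add, hD0, cnt_single, zero_add, sub_eq_zero] at h3
    rw [map_sub, map_add, sub_eq_zero] at h1
    have h4 : χ D = (n : ℤ) * δ := by
      rw [hD, map_zsmul, map_sub, smul_eq_mul]
    have h5 : χ (Finsupp.single P₀ (g : ℤ)) = (g : ℤ) * χ (Finsupp.single P₀ 1) := by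
      have : Finsupp.single P₀ (g : ℤ) = (g : ℤ) • Finsupp.single P₀ (1 : ℤ) := by simp
      rw [this, map_zsmul, smul_eq_mul]
    have h6 : |χ E| ≤ C * g := by
      have := abs_hom_le χ C hC hE
      rwa [← h3] at this
    have h7 : |(g : ℤ) * χ (Finsupp.single P₀ 1)| ≤ C * g := by
      rw [abs_mul, abs_of_nonneg (Int.natCast_nonneg g), mul_comm]
      exact mul_le_mul_of_nonneg_right (hC P₀) (Int.natCast_nonneg g)
    have h8 : (n : ℤ) * δ = χ E - (g : ℤ) * χ (Finsupp.single P₀ 1) := by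
      rw [← h4, ← h5]; linarith
    rw [h8]
    calc |χ E - (g : ℤ) * χ (Finsupp.single P₀ 1)|
        ≤ |χ E| + |(g : ℤ) * χ (Finsupp.single P₀ 1)| := abs_sub _ _
      _ ≤ 2 * (C * g) := by linarith
  have hδ0 : δ = 0 := by
    by_contra hne
    have h1 : 1 ≤ |δ| := Int.one_le_abs hne
    have h2' := key (2 * (C * g) + 1).toNat
    have h3 : (((2 * (C * g) + 1).toNat : ℕ) : ℤ) = 2 * (C * g) + 1 :=
      Int.toNat_of_nonneg (by positivity)
    rw [h3, abs_mul, abs_of_nonneg (by positivity : (0 : ℤ) ≤ 2 * (C * g) + 1)] at h2'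
    nlinarith [mul_nonneg hC0 (Int.natCast_nonneg g)]
  linarith [hδ0, hδ]

variable {k Fb : Type*} [Field k] [Field Fb] [Algebra k Fb]

theorem eq_zero_of_nonneg_of_cnt_eq_zero {D : Divisor k Fb} (h0 : 0 ≤ D) (hc : cnt D = 0) :
    D = 0 := by
  rw [cnt_eq_sum, Finsupp.sum] at hc
  have := (Finset.sum_eq_zero_iff_of_nonneg (fun Q _ => h0 Q)).mp hc
  ext Q
  by_cases hQ : Q ∈ D.support
  · exact this Q hQ
  · simpa using hQ

theorem apply_le_cnt {D : Divisor k Fb} (h0 : 0 ≤ D) (Q : Place k Fb) : D Q ≤ cnt D := by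
  rw [cnt_eq_sum, Finsupp.sum]
  by_cases hQ : Q ∈ D.support
  · exact Finset.single_le_sum (f := fun Q => D Q) (fun Q _ => h0 Q) hQ
  · have : D Q = 0 := by simpa using hQ
    rw [this]
    exact Finset.sum_nonneg fun Q _ => h0 Q

/-- **Lemma U**. -/
theorem hom_eq_of_agree_on_principal {g : ℕ} {P₀ : Place L F} (h2 : HasEffRep L F g P₀)
    (hprin : ∀ D ∈ Divisor.principal (K := L) (F := F), cnt D = 0)
    (Φ₁ Φ₂ : Divisor L F →+ Divisor k Fb) (d : ℤ)
    (h1eff : ∀ P, 0 ≤ Φ₁ (Finsupp.single P 1)) (h1cnt : ∀ P, cnt (Φ₁ (Finsupp.single P 1)) = d)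
    (h2eff : ∀ P, 0 ≤ Φ₂ (Finsupp.single P 1)) (h2cnt : ∀ P, cnt (Φ₂ (Finsupp.single P 1)) = d)
    (hagree : ∀ D ∈ Divisor.principal (K := L) (F := F), Φ₁ D = Φ₂ D)
    (havoid : ∀ Q : Place k Fb, ∃ P : Place L F, Φ₂ (Finsupp.single P 1) Q = 0) :
    Φ₁ = Φ₂ := by
  have hconst : ∀ (Q : Place k Fb) (P P' : Place L F),
      (Φ₁ (Finsupp.single P 1) - Φ₂ (Finsupp.single P 1)) Q =
        (Φ₁ (Finsupp.single P' 1) - Φ₂ (Finsupp.single P' 1)) Q := by
    intro Q P P'
    set χ : Divisor L F →+ ℤ := (Finsupp.applyAddHom Q).comp (Φ₁ - Φ₂) with hχ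
    have hχa : ∀ D, χ D = (Φ₁ D - Φ₂ D) Q := fun D => rfl
    have := hom_const_of_bounded h2 hprin χ
      (fun D hD => by rw [hχa, hagree D hD, sub_self]; rfl) d
      (fun P => by
        rw [hχa, Finsupp.sub_apply, abs_le]
        have a1 := h1eff P Q
        have a2 := h2eff P Q
        have a3 := apply_le_cnt (h1eff P) Q
        have a4 := apply_le_cnt (h2eff P) Q
        rw [h1cnt] at a3
        rw [h2cnt] at a4
        simp only [Finsupp.coe_zero, Pi.zero_apply] at a1 a2
        constructor <;> linarith) P P'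
    simpa [hχa] using this
  have hnonneg : ∀ (P : Place L F), 0 ≤ Φ₁ (Finsupp.single P 1) - Φ₂ (Finsupp.single P 1) := by
    intro P Q
    obtain ⟨P', hP'⟩ := havoid Q
    rw [hconst Q P P', Finsupp.sub_apply, hP', sub_zero]
    exact h1eff P' Q
  refine Finsupp.addHom_ext fun P n => ?_
  have h0 : Φ₁ (Finsupp.single P 1) - Φ₂ (Finsupp.single P 1) = 0 :=
    eq_zero_of_nonneg_of_cnt_eq_zero (hnonneg P) (by rw [map_sub, h1cnt, h2cnt, sub_self])
  have hs : Finsupp.single P n = n • Finsupp.single P (1 : ℤ) := by simp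
  rw [hs, map_zsmul, map_zsmul, sub_eq_zero.mp h0]

end

end Fermat.Agent.RED.ES
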