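import Fermat.Agent.GAL.HeckeComm

/-!
# RED / ES : `T_ℓ` commutes with the degeneracy map `B : q ↦ q^c`  (characteristic zero)

`B^* ∘ T_ℓ^{(N)} = T_ℓ^{(Nc)} ∘ B^*` on divisors, for `ℓ ∤ N c`.
-/

set_option autoImplicit false

open AlgebraicCurve ModularCurve
open Fermat.Agent.S24 Fermat.Agent.GAL.HeckeComm Fermat.Agent.GAL.HeckeInputs Fermat.Agent.GAL.FFBC

namespace Fermat.Agent.RED.ES

noncomputable section

theorem pullbackAlong_congr {K F F' : Type*} [Field K] [Field F] [Field F'] [Algebra K F]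
    [Algebra K F'] [HasPrincipalDivisors K F'] {φ φ' : F →ₐ[K] F'} (h : φ = φ')
    (hφ : φ.toRingHom.IsIntegral) (hφ' : φ'.toRingHom.IsIntegral) (D : Divisor K F) :
    Divisor.pullbackAlong φ hφ D = Divisor.pullbackAlong φ' hφ' D := by
  subst h; rfl

variable (N c ℓ : ℕ) [NeZero N] [NeZero c] [NeZero ℓ]

theorem betaUp_comp_beta :
    (betaUp N c ℓ).comp (heckeBetaBar Kb N ℓ) =
      (heckeBetaBar Kb (N * c) ℓ).comp (heckeBetaBar Kb N c) := by
  refine AlgHom.ext fun x => Subtype.ext ?_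
  rw [AlgHom.comp_apply, AlgHom.comp_apply, coe_betaUp, coe_heckeBetaBar, coe_heckeBetaBar,
    coe_heckeBetaBar, qExpand_qExpand, qExpand_qExpand]
  exact ModularCurve.qExpand_congr (mul_comm c ℓ) _

/-- `B^* ∘ T_ℓ = T_ℓ ∘ B^*` on divisors. -/
theorem pullbackAlong_heckeDivBar (hℓ : ℓ.Prime) (hℓN : ¬ ℓ ∣ N * c) (D : Divisor Kb (FN N)) :
    Divisor.pullbackAlong (heckeBetaBar Kb N c) (heckeBetaBarIntegral N c)
        (heckeDivBar (heckeAlphaBarIntegral N ℓ) (heckeBetaBarIntegral N ℓ) D) =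
      heckeDivBar (heckeAlphaBarIntegral (N * c) ℓ) (heckeBetaBarIntegral (N * c) ℓ)
        (Divisor.pullbackAlong (heckeBetaBar Kb N c) (heckeBetaBarIntegral N c) D) := by
  have hℓN' : ¬ ℓ ∣ N := fun h => hℓN (h.mul_right c)
  have hdeg : finrankAlong Kb (heckeAlphaBar Kb (N * c) ℓ) =
      finrankAlong Kb (heckeAlphaBar Kb N ℓ) := by
    rw [finrankAlong_alpha_of_not_dvd N ℓ hℓ hℓN', finrankAlong_alpha_of_not_dvd (N * c) ℓ hℓ hℓN]
  show Divisor.pullbackAlong (heckeBetaBar Kb N c) (isIntegral_any _)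
      (Divisor.pushforwardAlong (heckeAlphaBar Kb N ℓ) (isIntegral_any _)
        (Divisor.pullbackAlong (heckeBetaBar Kb N ℓ) (isIntegral_any _) D)) =
    Divisor.pushforwardAlong (heckeAlphaBar Kb (N * c) ℓ) (isIntegral_any _)
      (Divisor.pullbackAlong (heckeBetaBar Kb (N * c) ℓ) (isIntegral_any _)
        (Divisor.pullbackAlong (heckeBetaBar Kb N c) (isIntegral_any _) D))
  rw [pullbackAlong_pushforwardAlong (heckeAlphaBar Kb N ℓ) (heckeBetaBar Kb N c)
    (heckeAlphaBar Kb (N * c) ℓ) (betaUp N c ℓ) (square_comm N c ℓ)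
    _ _ (isIntegral_any _) (isIntegral_any _) (finiteAlong_any _) (finiteAlong_any _)
    (finiteAlong_any _) (finiteAlong_any _) (isFiniteParam_jF N) (square_gen N c ℓ) hdeg]
  rw [pullbackAlong_comp _ _ _ _ (isIntegral_any _), pullbackAlong_comp _ _ _ _ (isIntegral_any _)]
  rw [pullbackAlong_congr (betaUp_comp_beta N c ℓ) _ (isIntegral_any _)]

end

end Fermat.Agent.RED.ES
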