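import Fermat.Agent.S24.Sigma
import Fermat.Agent.S24.Conj
import Fermat.Prelude.Def_ModularCurve_HeckeOperator

/-!
# RED / ES : the Atkin–Lehner swap on the function field of `X₀(Nℓ)`

For `ℓ` prime to `N` there is a ring endomorphism `swap` of the function field of `X₀(Nℓ)` over
`Qbar`, fixing the constants, with `swap ∘ α = β` and `swap ∘ β = α`
(`α` = inclusion, `β` = `q ↦ q^ℓ`).
-/

set_option autoImplicit false

open UpperHalfPlane ModularCurve Fermat.Agent.S24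
open scoped MatrixGroups

namespace Fermat.Agent.RED.ES

noncomputable section

/-- Precomposition with an element of `GL(2,ℝ)⁺` on `Mer`. -/
def compMer (g : GL (Fin 2) ℝ) (hg : 0 < g.det.val) : Mer →+* Mer :=
  IsFractionRing.lift (g := (algebraMap Hol Mer).comp (compGL g hg : Hol →+* Hol))
    ((IsFractionRing.injective Hol Mer).comp (compGL_injective g hg))

theorem compMer_algebraMap (g : GL (Fin 2) ℝ) (hg : 0 < g.det.val) (f : Hol) :
    compMer g hg (algebraMap Hol Mer f) = algebraMap Hol Mer (compGL g hg f) :=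
  IsFractionRing.lift_algebraMap _ f

theorem compMer_const (g : GL (Fin 2) ℝ) (hg : 0 < g.det.val) (c : ℂ) :
    compMer g hg (algebraMap ℂ Mer c) = algebraMap ℂ Mer c := by
  rw [IsScalarTower.algebraMap_apply ℂ Hol Mer, compMer_algebraMap, AlgHom.commutes]

section Matrix

variable (N ℓ : ℕ) (x y : ℤ)

/-- The Atkin–Lehner matrix. -/
def wMat : Matrix (Fin 2) (Fin 2) ℝ := !![(ℓ : ℝ) * x, y; (N : ℝ) * ℓ, ℓ]

theorem det_wMat (h : (ℓ : ℤ) * x - N * y = 1) : (wMat N ℓ x y).det = ℓ := by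
  have h' : (ℓ : ℝ) * x - N * y = 1 := by exact_mod_cast h
  rw [wMat, Matrix.det_fin_two_of]
  linear_combination (ℓ : ℝ) * h'

variable [NeZero ℓ]

/-- The Atkin–Lehner matrix as an element of `GL(2,ℝ)`. -/
def wGL (h : (ℓ : ℤ) * x - N * y = 1) : GL (Fin 2) ℝ :=
  Matrix.GeneralLinearGroup.mkOfDetNeZero (wMat N ℓ x y) (by
    rw [det_wMat N ℓ x y h]; exact_mod_cast NeZero.ne ℓ)

theorem det_wGL_pos (h : (ℓ : ℤ) * x - N * y = 1) : 0 < (wGL N ℓ x y h).det.val := by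
  have : (wGL N ℓ x y h).det.val = ℓ := det_wMat N ℓ x y h
  rw [this]
  exact_mod_cast Nat.pos_of_ne_zero (NeZero.ne ℓ)

theorem coe_wGL_smul (h : (ℓ : ℤ) * x - N * y = 1) (τ : ℍ) :
    ((wGL N ℓ x y h • τ : ℍ) : ℂ) = ((ℓ : ℂ) * x * τ + y) / ((N : ℂ) * ℓ * τ + ℓ) := by
  rw [UpperHalfPlane.coe_smul_of_det_pos (det_wGL_pos N ℓ x y h)]
  simp [UpperHalfPlane.num, UpperHalfPlane.denom, wGL, wMat]

theorem den_ne_zero [NeZero N] (τ : ℍ) : (N : ℂ) * ℓ * τ + ℓ ≠ 0 := by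
  intro h
  have h1 := congrArg Complex.im h
  have hN : (0 : ℝ) < N := by exact_mod_cast Nat.pos_of_ne_zero (NeZero.ne N)
  have hℓ : (0 : ℝ) < ℓ := by exact_mod_cast Nat.pos_of_ne_zero (NeZero.ne ℓ)
  have h2 : ((N : ℂ) * ℓ * τ + ℓ).im = N * ℓ * τ.im := by
    have : ((N : ℂ) * ℓ * τ + ℓ) = (((N * ℓ : ℝ)) : ℂ) * τ + ((ℓ : ℝ) : ℂ) := by push_cast; ring
    rw [this]
    simp
  rw [h2, Complex.zero_im] at h1
  exact (mul_pos (mul_pos hN hℓ) τ.im_pos).ne' h1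

/-- First auxiliary element of `SL(2,ℤ)`. -/
def gam1 (d e : ℕ) (hde : d * e = N) (h : (ℓ : ℤ) * x - N * y = 1) : SL(2, ℤ) :=
  ⟨!![x, d * y; e, ℓ], by
    rw [Matrix.det_fin_two_of]
    have : (N : ℤ) = d * e := by exact_mod_cast hde.symm
    rw [this] at h
    linear_combination h⟩

/-- Second auxiliary element of `SL(2,ℤ)`. -/
def gam2 (d e : ℕ) (hde : d * e = N) (h : (ℓ : ℤ) * x - N * y = 1) : SL(2, ℤ) :=
  ⟨!![ℓ * x, d * y; e, 1], by
    rw [Matrix.det_fin_two_of]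
    have : (N : ℤ) = d * e := by exact_mod_cast hde.symm
    rw [this] at h
    linear_combination h⟩

theorem scal_wGL_smul [NeZero N] (d e : ℕ) [NeZero d] (hde : d * e = N)
    (h : (ℓ : ℤ) * x - N * y = 1) (τ : ℍ) :
    scal d (wGL N ℓ x y h • τ) = gam1 N ℓ x y d e hde h • scal (ℓ * d) τ := by
  apply UpperHalfPlane.ext
  have hden := den_ne_zero N ℓ τ
  have hN : (N : ℂ) = d * e := by exact_mod_cast hde.symm
  rw [coe_scal, coe_wGL_smul, UpperHalfPlane.coe_specialLinearGroup_apply, coe_scal]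
  have hden' : ((algebraMap ℤ ℝ (gam1 N ℓ x y d e hde h 1 0) : ℝ) : ℂ) * (((ℓ * d : ℕ) : ℂ) * τ)
      + ((algebraMap ℤ ℝ (gam1 N ℓ x y d e hde h 1 1) : ℝ) : ℂ) = (N : ℂ) * ℓ * τ + ℓ := by
    simp [gam1, hN]; ring
  rw [hden', mul_div_assoc', div_left_inj' hden]
  simp [gam1]; ring

theorem scal_mul_wGL_smul [NeZero N] (d e : ℕ) [NeZero d] (hde : d * e = N)
    (h : (ℓ : ℤ) * x - N * y = 1) (τ : ℍ) :
    scal (ℓ * d) (wGL N ℓ x y h • τ) = gam2 N ℓ x y d e hde h • scal d τ := by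
  apply UpperHalfPlane.ext
  have hden := den_ne_zero N ℓ τ
  have hN : (N : ℂ) = d * e := by exact_mod_cast hde.symm
  have hℓ : (ℓ : ℂ) ≠ 0 := by exact_mod_cast NeZero.ne ℓ
  rw [coe_scal, coe_wGL_smul, UpperHalfPlane.coe_specialLinearGroup_apply, coe_scal]
  have hden' : ((algebraMap ℤ ℝ (gam2 N ℓ x y d e hde h 1 0) : ℝ) : ℂ) * ((d : ℂ) * τ)
      + ((algebraMap ℤ ℝ (gam2 N ℓ x y d e hde h 1 1) : ℝ) : ℂ) = (N : ℂ) * τ + 1 := by
    simp [gam2, hN]; ring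
  have hden2 : (N : ℂ) * τ + 1 ≠ 0 := by
    intro h0
    apply hden
    linear_combination (ℓ : ℂ) * h0
  rw [hden', mul_div_assoc', div_eq_div_iff hden hden2]
  simp [gam2]; ring

theorem jd_wGL_smul [NeZero N] (d : ℕ) [NeZero d] (hd : d ∣ N)
    (h : (ℓ : ℤ) * x - N * y = 1) (τ : ℍ) :
    jd d (wGL N ℓ x y h • τ) = jd (ℓ * d) τ := by
  obtain ⟨e, he⟩ := hd
  rw [jd, scal_wGL_smul N ℓ x y d e he.symm h, jfun_isSLInvariant, jd]

theorem jd_mul_wGL_smul [NeZero N] (d : ℕ) [NeZero d] (hd : d ∣ N)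
    (h : (ℓ : ℤ) * x - N * y = 1) (τ : ℍ) :
    jd (ℓ * d) (wGL N ℓ x y h • τ) = jd d τ := by
  obtain ⟨e, he⟩ := hd
  rw [jd, scal_mul_wGL_smul N ℓ x y d e he.symm h, jfun_isSLInvariant, jd]

end Matrix

section Swap

variable (N ℓ : ℕ) [NeZero N] [NeZero ℓ] (x y : ℤ) (h : (ℓ : ℤ) * x - N * y = 1)

theorem compGL_jdHol (d : ℕ) [NeZero d] (hd : d ∣ N) :
    compGL (wGL N ℓ x y h) (det_wGL_pos N ℓ x y h) (jdHol d) = jdHol (ℓ * d) := by
  apply Subtype.ext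
  funext τ
  exact jd_wGL_smul N ℓ x y d hd h τ

theorem compGL_jdHol_mul (d : ℕ) [NeZero d] (hd : d ∣ N) :
    compGL (wGL N ℓ x y h) (det_wGL_pos N ℓ x y h) (jdHol (ℓ * d)) = jdHol d := by
  apply Subtype.ext
  funext τ
  exact jd_mul_wGL_smul N ℓ x y d hd h τ

omit [NeZero N] [NeZero ℓ] in
theorem mul_dvd_of_dvd {d : ℕ} (hd : d ∣ N) : ℓ * d ∣ N * ℓ := by
  rw [mul_comm N ℓ]; exact mul_dvd_mul_left ℓ hd

/-- The ring hom `f ↦ (Θ f) ∘ w`. -/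
def preSwap : FN (N * ℓ) →+* Mer :=
  (compMer (wGL N ℓ x y h) (det_wGL_pos N ℓ x y h)).comp (ThetaMer (N * ℓ))

omit [NeZero N] in
theorem preSwap_algebraMap (a : Kb) :
    preSwap N ℓ x y h (algebraMap Kb (FN (N * ℓ)) a) = ThetaMer (N * ℓ) (algebraMap Kb _ a) := by
  rw [preSwap, RingHom.comp_apply, ThetaMer_algebraMap, compMer_const]

theorem preSwap_jBar (d : ℕ) [NeZero d] (hd : d ∣ N) :
    preSwap N ℓ x y h (jBar (N * ℓ) d (hd.trans (dvd_mul_right N ℓ)))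
      = ThetaMer (N * ℓ) (jBar (N * ℓ) (ℓ * d) (mul_dvd_of_dvd N ℓ hd)) := by
  rw [preSwap, RingHom.comp_apply, ThetaMer_jBar, ThetaMer_jBar, compMer_algebraMap,
    compGL_jdHol N ℓ x y h d hd]

theorem preSwap_jBar_mul (d : ℕ) [NeZero d] (hd : d ∣ N) :
    preSwap N ℓ x y h (jBar (N * ℓ) (ℓ * d) (mul_dvd_of_dvd N ℓ hd))
      = ThetaMer (N * ℓ) (jBar (N * ℓ) d (hd.trans (dvd_mul_right N ℓ))) := by
  rw [preSwap, RingHom.comp_apply, ThetaMer_jBar, ThetaMer_jBar, compMer_algebraMap,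
    compGL_jdHol_mul N ℓ x y h d hd]

theorem jBar_congr {M d d' : ℕ} [NeZero d] [NeZero d'] (hdd : d = d') (hd : d ∣ M) :
    jBar M d hd = jBar M d' (hdd ▸ hd) := by
  subst hdd; rfl

theorem preSwap_mem_range (hℓ : ℓ.Prime) (f : FN (N * ℓ)) :
    preSwap N ℓ x y h f ∈ (ThetaMer (N * ℓ)).fieldRange := by
  let F := modularFunctionFieldBar (N * ℓ)
  let S0 : Subfield F := (ThetaMer (N * ℓ)).fieldRange.comap (preSwap N ℓ x y h)
  let S : Subfield (LaurentSeries Kb) := S0.map F.val.toRingHom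
  have key : ∀ z ∈ F, z ∈ S := by
    apply bar_le
    · intro a
      exact ⟨algebraMap Kb F a, ⟨_, (preSwap_algebraMap N ℓ x y h a).symm⟩, rfl⟩
    · intro D _ hD
      refine ⟨jBar (N * ℓ) D hD, ?_, coe_jBar (N * ℓ) D hD⟩
      by_cases hℓD : ℓ ∣ D
      · obtain ⟨d, rfl⟩ := hℓD
        have hd : d ∣ N := by
          rw [mul_comm N ℓ] at hD
          exact Nat.dvd_of_mul_dvd_mul_left hℓ.pos hD
        have : NeZero d := ⟨fun h0 => NeZero.ne (ℓ * d) (by rw [h0, mul_zero])⟩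
        exact ⟨_, (preSwap_jBar_mul N ℓ x y h d hd).symm⟩
      · have hd : D ∣ N :=
          (Nat.Coprime.dvd_of_dvd_mul_right ((Nat.Prime.coprime_iff_not_dvd hℓ).mpr hℓD).symm hD)
        exact ⟨_, (preSwap_jBar N ℓ x y h D hd).symm⟩
  obtain ⟨z, hz, hzf⟩ := key f f.2
  have : z = f := Subtype.ext hzf
  rw [← this]; exact hz

/-- The Atkin–Lehner swap. -/
def swap (hℓ : ℓ.Prime) : FN (N * ℓ) →+* FN (N * ℓ) :=
  liftThrough (ThetaMer (N * ℓ)) (preSwap N ℓ x y h) (preSwap_mem_range N ℓ x y h hℓ)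

theorem swap_eq_iff (hℓ : ℓ.Prime) (f g : FN (N * ℓ)) :
    swap N ℓ x y h hℓ f = g ↔ preSwap N ℓ x y h f = ThetaMer (N * ℓ) g :=
  liftThrough_eq_iff _ _ _ f g

theorem swap_algebraMap (hℓ : ℓ.Prime) (a : Kb) :
    swap N ℓ x y h hℓ (algebraMap Kb _ a) = algebraMap Kb _ a := by
  rw [swap_eq_iff, preSwap_algebraMap]

theorem swap_jBar (hℓ : ℓ.Prime) (d : ℕ) [NeZero d] (hd : d ∣ N) :
    swap N ℓ x y h hℓ (jBar (N * ℓ) d (hd.trans (dvd_mul_right N ℓ)))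
      = jBar (N * ℓ) (ℓ * d) (mul_dvd_of_dvd N ℓ hd) := by
  rw [swap_eq_iff, preSwap_jBar N ℓ x y h d hd]

theorem swap_jBar_mul (hℓ : ℓ.Prime) (d : ℕ) [NeZero d] (hd : d ∣ N) :
    swap N ℓ x y h hℓ (jBar (N * ℓ) (ℓ * d) (mul_dvd_of_dvd N ℓ hd))
      = jBar (N * ℓ) d (hd.trans (dvd_mul_right N ℓ)) := by
  rw [swap_eq_iff, preSwap_jBar_mul N ℓ x y h d hd]

theorem heckeAlphaBar_jBar (d : ℕ) [NeZero d] (hd : d ∣ N) :
    heckeAlphaBar Kb N ℓ (jBar N d hd) = jBar (N * ℓ) d (hd.trans (dvd_mul_right N ℓ)) :=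
  Subtype.ext rfl

omit [NeZero N] in
theorem heckeBetaBar_jBar (d : ℕ) [NeZero d] (hd : d ∣ N) :
    heckeBetaBar Kb N ℓ (jBar N d hd) = jBar (N * ℓ) (ℓ * d) (mul_dvd_of_dvd N ℓ hd) := by
  apply Subtype.ext
  rw [coe_heckeBetaBar, coe_jBar, coe_jBar, jqNModC, jqNModC, qExpand_qExpand]

theorem swap_alpha (hℓ : ℓ.Prime) (f : FN N) :
    swap N ℓ x y h hℓ (heckeAlphaBar Kb N ℓ f) = heckeBetaBar Kb N ℓ f := by
  have : (swap N ℓ x y h hℓ).comp (heckeAlphaBar Kb N ℓ : FN N →+* FN (N * ℓ))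
      = (heckeBetaBar Kb N ℓ : FN N →+* FN (N * ℓ)) := by
    apply ringHom_ext_bar
    · intro a
      simp only [RingHom.comp_apply, RingHom.coe_coe, AlgHom.commutes]
      exact swap_algebraMap N ℓ x y h hℓ a
    · intro d _ hd
      simp only [RingHom.comp_apply, RingHom.coe_coe]
      rw [heckeAlphaBar_jBar, heckeBetaBar_jBar, swap_jBar N ℓ x y h hℓ d hd]
  exact congrArg (fun φ => φ f) this

theorem swap_beta (hℓ : ℓ.Prime) (f : FN N) :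
    swap N ℓ x y h hℓ (heckeBetaBar Kb N ℓ f) = heckeAlphaBar Kb N ℓ f := by
  have : (swap N ℓ x y h hℓ).comp (heckeBetaBar Kb N ℓ : FN N →+* FN (N * ℓ))
      = (heckeAlphaBar Kb N ℓ : FN N →+* FN (N * ℓ)) := by
    apply ringHom_ext_bar
    · intro a
      simp only [RingHom.comp_apply, RingHom.coe_coe, AlgHom.commutes]
      exact swap_algebraMap N ℓ x y h hℓ a
    · intro d _ hd
      simp only [RingHom.comp_apply, RingHom.coe_coe]
      rw [heckeAlphaBar_jBar, heckeBetaBar_jBar, swap_jBar_mul N ℓ x y h hℓ d hd]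
  exact congrArg (fun φ => φ f) this

end Swap

/-- **The Atkin–Lehner swap** (existence statement). -/
theorem exists_swap (N ℓ : ℕ) [NeZero N] [NeZero ℓ] (hℓ : ℓ.Prime) (hℓN : ¬ ℓ ∣ N) :
    ∃ s : FN (N * ℓ) →+* FN (N * ℓ),
      (∀ a : Kb, s (algebraMap Kb _ a) = algebraMap Kb _ a) ∧
      (∀ f : FN N, s (heckeAlphaBar Kb N ℓ f) = heckeBetaBar Kb N ℓ f) ∧
      (∀ f : FN N, s (heckeBetaBar Kb N ℓ f) = heckeAlphaBar Kb N ℓ f) := by
  have hcop : IsCoprime (ℓ : ℤ) (N : ℤ) :=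
    Nat.isCoprime_iff_coprime.mpr ((Nat.Prime.coprime_iff_not_dvd hℓ).mpr hℓN)
  obtain ⟨a, b, hab⟩ := hcop
  have h : (ℓ : ℤ) * a - N * (-b) = 1 := by linear_combination hab
  exact ⟨swap N ℓ a (-b) h hℓ, swap_algebraMap N ℓ a (-b) h hℓ, swap_alpha N ℓ a (-b) h hℓ,
    swap_beta N ℓ a (-b) h hℓ⟩

end

end Fermat.Agent.RED.ES
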