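import Fermat.Agent.RED.ES.Formal
import Fermat.Agent.RED.ES.Swap
import Fermat.Agent.GAL.HeckeEquiv.NormProd

/-!
# RED / ES : the `q`-expansion of the norm `N_{F_{Nℓ}/αF_N}(β y)` and the Kronecker congruence
-/

set_option autoImplicit false

open ModularCurve AlgebraicCurve Fermat.Agent.S24
open scoped MatrixGroups

namespace Fermat.Agent.RED.ES

noncomputable section

variable (N ℓ : ℕ) [NeZero N] [NeZero ℓ]

theorem finrank_alpha_eq (hℓ : ℓ.Prime) (hℓN : ¬ ℓ ∣ N) :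
    (letI := algebraAlong (heckeAlphaBar Kb N ℓ); Module.finrank (FN N) (FN (N * ℓ))) = ℓ + 1 := by
  rw [Fermat.Agent.GAL.HeckeEquiv.finrank_alpha]
  exact Fermat.Agent.S20.relIndex_Gamma0_of_not_dvd (NeZero.ne N) hℓ hℓN

/-- An algebraically closed field containing `Kb((t))`. -/
abbrev LauBar : Type := AlgebraicClosure (LaurentSeries Kb)

/-- The inclusion of `Kb((t))` in `LauBar`. -/
def lauIncl : LaurentSeries Kb →+* LauBar := algebraMap (LaurentSeries Kb) LauBar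

/-- `f ↦ f(t ^ ℓ)` on the function field of level `M`. -/
def toLau (M : ℕ) : FN M →+* LaurentSeries Kb :=
  (qExpand Kb ℓ).comp (modularFunctionFieldBar M).val.toRingHom

omit [NeZero N] in
theorem toLau_apply (M : ℕ) (f : FN M) : toLau ℓ M f = qExpand Kb ℓ (f : LaurentSeries Kb) := rfl

/-- `LauBar` as an algebra over the function field of level `N`, via `q ↦ t ^ ℓ`. -/
abbrev algLauBar : Algebra (FN N) LauBar := (lauIncl.comp (toLau ℓ N)).toAlgebra

/-- Make an `FN N`-algebra hom out of a ring hom. -/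
def mkEmb (φ : FN (N * ℓ) →+* LaurentSeries Kb)
    (hφ : ∀ a : FN N, φ (heckeAlphaBar Kb N ℓ a) = qExpand Kb ℓ (a : LaurentSeries Kb)) :
    letI := algebraAlong (heckeAlphaBar Kb N ℓ)
    letI := algLauBar N ℓ
    FN (N * ℓ) →ₐ[FN N] LauBar :=
  letI := algebraAlong (heckeAlphaBar Kb N ℓ)
  letI := algLauBar N ℓ
  AlgHom.mk (lauIncl.comp φ) (fun a => by
    have h1 : algebraMap (FN N) (FN (N * ℓ)) = (heckeAlphaBar Kb N ℓ).toRingHom :=
      RingHom.algebraMap_toAlgebra _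
    have h2 : algebraMap (FN N) LauBar = lauIncl.comp (toLau ℓ N) :=
      RingHom.algebraMap_toAlgebra _
    rw [h1, h2, RingHom.toFun_eq_coe, RingHom.comp_apply, RingHom.comp_apply, toLau_apply,
      AlgHom.toRingHom_eq_coe, RingHom.coe_coe, hφ])

theorem mkEmb_apply (φ : FN (N * ℓ) →+* LaurentSeries Kb)
    (hφ : ∀ a : FN N, φ (heckeAlphaBar Kb N ℓ a) = qExpand Kb ℓ (a : LaurentSeries Kb))
    (f : FN (N * ℓ)) : mkEmb N ℓ φ hφ f = lauIncl (φ f) := rfl

section Family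

variable (s : FN (N * ℓ) →+* FN (N * ℓ))
  (hsα : ∀ f : FN N, s (heckeAlphaBar Kb N ℓ f) = heckeBetaBar Kb N ℓ f)
  (hsβ : ∀ f : FN N, s (heckeBetaBar Kb N ℓ f) = heckeAlphaBar Kb N ℓ f)
  (ζ : Kbˣ) (hζ : IsPrimitiveRoot ζ ℓ)

/-- The underlying ring homs of the `ℓ + 1` embeddings. -/
def famHom : Option (Fin ℓ) → (FN (N * ℓ) →+* LaurentSeries Kb)
  | none => toLau ℓ (N * ℓ)
  | some b => (rotR (ζ ^ (b : ℕ))).comp ((modularFunctionFieldBar (N * ℓ)).val.toRingHom.comp s)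

omit [NeZero N] in
theorem famHom_none (f : FN (N * ℓ)) :
    famHom N ℓ s ζ none f = qExpand Kb ℓ (f : LaurentSeries Kb) := rfl

omit [NeZero N] in
theorem famHom_some (b : Fin ℓ) (f : FN (N * ℓ)) :
    famHom N ℓ s ζ (some b) f = rotR (ζ ^ (b : ℕ)) ((s f : FN (N * ℓ)) : LaurentSeries Kb) := rfl

include hsα hζ in
theorem famHom_alpha (i : Option (Fin ℓ)) (a : FN N) :
    famHom N ℓ s ζ i (heckeAlphaBar Kb N ℓ a) = qExpand Kb ℓ (a : LaurentSeries Kb) := by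
  cases i with
  | none => rw [famHom_none, coe_heckeAlphaBar]
  | some b =>
    rw [famHom_some, hsα, coe_heckeBetaBar, rotR_qExpand]
    rw [← pow_mul, mul_comm, pow_mul, hζ.pow_eq_one, one_pow]

include hsβ in
theorem famHom_beta_some (b : Fin ℓ) (a : FN N) :
    famHom N ℓ s ζ (some b) (heckeBetaBar Kb N ℓ a) = rotR (ζ ^ (b : ℕ)) (a : LaurentSeries Kb) := by
  rw [famHom_some, hsβ, coe_heckeAlphaBar]

omit [NeZero N] in
theorem famHom_beta_none (a : FN N) :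
    famHom N ℓ s ζ none (heckeBetaBar Kb N ℓ a)
      = qExpand Kb ℓ (qExpand Kb ℓ (a : LaurentSeries Kb)) := by
  rw [famHom_none, coe_heckeBetaBar]

omit [NeZero N] in
theorem coe_jF : ((jF N : FN N) : LaurentSeries Kb) = jqModC Kb := by
  rw [jF, coe_jBar, jqNModC_one]

include hsβ hζ in
theorem famHom_injective (hℓ : ℓ.Prime) : Function.Injective (famHom N ℓ s ζ) := by
  have hnd : ¬ ((ℓ : ℤ) ∣ (-1 : ℤ)) := by
    intro h
    have h1 : (ℓ : ℤ) ∣ 1 := (dvd_neg.mp h)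
    have h2 : ℓ ∣ 1 := by exact_mod_cast h1
    exact hℓ.one_lt.ne' (Nat.dvd_one.mp h2)
  have c0 : (famHom N ℓ s ζ none (heckeBetaBar Kb N ℓ (jF N))).coeff (-1) = 0 := by
    rw [famHom_beta_none]
    exact qExpand_coeff_of_not_dvd ℓ _ hnd
  have c1 : ∀ b : Fin ℓ, (famHom N ℓ s ζ (some b) (heckeBetaBar Kb N ℓ (jF N))).coeff (-1)
      = (((ζ ^ (b : ℕ)) ^ (-1 : ℤ) : Kbˣ) : Kb) := by
    intro b
    rw [famHom_beta_some N ℓ s hsβ, rotR_coeff, coe_jF, coeff_jqModC_neg_one, mul_one]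
  intro i i' hii
  have hc := congrArg (fun φ => (φ (heckeBetaBar Kb N ℓ (jF N))).coeff (-1)) hii
  cases i with
  | none =>
    cases i' with
    | none => rfl
    | some b' =>
      rw [c0, c1] at hc
      exact absurd hc.symm (Units.ne_zero _)
  | some b =>
    cases i' with
    | none =>
      rw [c0, c1] at hc
      exact absurd hc (Units.ne_zero _)
    | some b' =>
      rw [c1, c1] at hc
      have h1 : (ζ ^ (b : ℕ)) ^ (-1 : ℤ) = (ζ ^ (b' : ℕ)) ^ (-1 : ℤ) := Units.ext hc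
      rw [zpow_neg_one, zpow_neg_one, inv_inj] at h1
      have h2 := hζ.pow_inj b.2 b'.2 h1
      exact congrArg some (Fin.ext h2)

include hsα hsβ hζ in
/-- **The `q`-expansion of the norm.** -/
theorem qExpand_norm_of (hℓ : ℓ.Prime) (hℓN : ¬ ℓ ∣ N) (y : FN N) :
    qExpand Kb ℓ (((letI := algebraAlong (heckeAlphaBar Kb N ℓ);
        Algebra.norm (FN N) (heckeBetaBar Kb N ℓ y) : FN N)) : LaurentSeries Kb)
      = qExpand Kb ℓ (qExpand Kb ℓ (y : LaurentSeries Kb)) *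
        ∏ b ∈ Finset.range ℓ, rotR (ζ ^ b) (y : LaurentSeries Kb) := by
  letI := algebraAlong (heckeAlphaBar Kb N ℓ)
  letI := algLauBar N ℓ
  haveI := Fermat.Agent.GAL.HeckeEquiv.finite_alpha N ℓ
  apply lauIncl.injective
  have h1 := Algebra.norm_eq_prod_embeddings (FN N) LauBar (heckeBetaBar Kb N ℓ y)
  have h2 : algebraMap (FN N) LauBar = lauIncl.comp (toLau ℓ N) :=
    RingHom.algebraMap_toAlgebra _
  rw [h2, RingHom.comp_apply, toLau_apply] at h1
  have hbij : Function.Bijective (fun i : Option (Fin ℓ) =>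
      mkEmb N ℓ (famHom N ℓ s ζ i) (famHom_alpha N ℓ s hsα ζ hζ i)) := by
    rw [Fintype.bijective_iff_injective_and_card]
    refine ⟨?_, ?_⟩
    · intro i i' hii
      apply famHom_injective N ℓ s hsβ ζ hζ hℓ
      ext1 f
      apply lauIncl.injective
      exact DFunLike.congr_fun hii f
    · rw [AlgHom.card, finrank_alpha_eq N ℓ hℓ hℓN, Fintype.card_option, Fintype.card_fin]
  refine h1.trans ?_
  rw [← hbij.prod_comp (fun σ : FN (N * ℓ) →ₐ[FN N] LauBar => σ (heckeBetaBar Kb N ℓ y)),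
    Fintype.prod_option, map_mul, map_prod]
  refine congrArg₂ (· * ·) ?_ ?_
  · rw [mkEmb_apply, famHom_beta_none]
  · rw [← Fin.prod_univ_eq_prod_range (fun b => lauIncl (rotR (ζ ^ b) (y : LaurentSeries Kb))) ℓ]
    refine Finset.prod_congr rfl fun b _ => ?_
    rw [mkEmb_apply, famHom_beta_some N ℓ s hsβ]

end Family

/-- **The `q`-expansion of the norm** `N_{F_{Nℓ}/αF_N}(β y) = y(q^ℓ) ∏_b y(ζ^b q^{1/ℓ})`,
written in the variable `t = q^{1/ℓ}`. -/
theorem qExpand_norm (hℓ : ℓ.Prime) (hℓN : ¬ ℓ ∣ N) (ζ : Kbˣ) (hζ : IsPrimitiveRoot ζ ℓ)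
    (y : FN N) :
    qExpand Kb ℓ (((letI := algebraAlong (heckeAlphaBar Kb N ℓ);
        Algebra.norm (FN N) (heckeBetaBar Kb N ℓ y) : FN N)) : LaurentSeries Kb)
      = qExpand Kb ℓ (qExpand Kb ℓ (y : LaurentSeries Kb)) *
        ∏ b ∈ Finset.range ℓ, rotR (ζ ^ b) (y : LaurentSeries Kb) := by
  obtain ⟨s, -, hsα, hsβ⟩ := exists_swap N ℓ hℓ hℓN
  exact qExpand_norm_of N ℓ s hsα hsβ ζ hζ hℓ hℓN y

theorem mem_valuationSubring_of_pow_eq_one {K : Type*} [Field K] (A : ValuationSubring K)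
    {n : ℕ} (hn : n ≠ 0) {u : K} (hu : u ^ n = 1) : u ∈ A := by
  rcases A.mem_or_inv_mem u with h | h
  · exact h
  · have h1 : u = (u⁻¹) ^ (n - 1) := by
      have hu0 : u ≠ 0 := by
        rintro rfl
        rw [zero_pow hn] at hu
        exact zero_ne_one hu
      have h2 : u ^ (n - 1) * u = 1 := by
        rw [← pow_succ, Nat.sub_add_cancel (Nat.pos_of_ne_zero hn), hu]
      rw [inv_pow]
      exact eq_inv_of_mul_eq_one_right h2
    rw [h1]
    exact pow_mem h _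

/-- **The Kronecker congruence** for the norm `N_{F_{Nℓ}/αF_N}(β y)`:
it is integral, and reduces to `ybar(q^ℓ) * ybar^σ`. -/
theorem norm_congruence (hℓ : ℓ.Prime) (hℓN : ¬ ℓ ∣ N) (A : ValuationSubring Kb)
    {k : Type*} [Field k] [ExpChar k ℓ] (π : A →+* k)
    (y₀ : LaurentSeries A) (hy : coeffMap A.subtype y₀ ∈ modularFunctionFieldBar N) :
    ∃ z₀ : LaurentSeries A,
      coeffMap A.subtype z₀ = (((letI := algebraAlong (heckeAlphaBar Kb N ℓ);
        Algebra.norm (FN N) (heckeBetaBar Kb N ℓ ⟨_, hy⟩) : FN N)) : LaurentSeries Kb) ∧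
      coeffMap π z₀ = qExpand k ℓ (coeffMap π y₀) * coeffMap (frobenius k ℓ) (coeffMap π y₀) := by
  obtain ⟨ζ, hζ⟩ := HasEnoughRootsOfUnity.exists_primitiveRoot Kb ℓ
  have hζ1 : ζ ^ ℓ = 1 := hζ.pow_eq_one
  have hζi : (ζ⁻¹) ^ ℓ = 1 := by rw [inv_pow, hζ1, inv_one]
  have hζ0 : ζ ≠ 0 := hζ.ne_zero (NeZero.ne ℓ)
  let ζA : Aˣ :=
    ⟨⟨ζ, mem_valuationSubring_of_pow_eq_one A (NeZero.ne ℓ) hζ1⟩,
      ⟨ζ⁻¹, mem_valuationSubring_of_pow_eq_one A (NeZero.ne ℓ) hζi⟩,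
      Subtype.ext (mul_inv_cancel₀ hζ0), Subtype.ext (inv_mul_cancel₀ hζ0)⟩
  have hζA : ζA ^ ℓ = 1 := by
    apply Units.ext
    apply Subtype.ext
    simpa [ζA] using hζ1
  have hπ : π ζA = 1 := by
    apply frobenius_inj k ℓ
    rw [frobenius_def, frobenius_def, one_pow, ← map_pow, ← Units.val_pow_eq_pow_val, hζA,
      Units.val_one, map_one]
  have hprim : IsPrimitiveRoot (Units.map (A.subtype : A →* Kb) ζA) ℓ := by
    rw [← IsPrimitiveRoot.coe_units_iff]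
    exact hζ
  exact kronecker_formal A.subtype A.subtype_injective π ℓ ζA hπ y₀ _
    (qExpand_norm N ℓ hℓ hℓN _ hprim ⟨_, hy⟩)

end

end Fermat.Agent.RED.ES
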