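import Fermat.Agent.RED.ES.Swap

/-!
# RED / ES : the Atkin–Lehner swap is an involution; `deg β = deg α`
-/

set_option autoImplicit false

open UpperHalfPlane ModularCurve Fermat.Agent.S24
open scoped MatrixGroups

namespace Fermat.Agent.RED.ES

noncomputable section

section Swap

variable (N ℓ : ℕ) [NeZero N] [NeZero ℓ] (x y : ℤ) (h : (ℓ : ℤ) * x - N * y = 1)

theorem swap_swap (hℓ : ℓ.Prime) (f : FN (N * ℓ)) :
    swap N ℓ x y h hℓ (swap N ℓ x y h hℓ f) = f := by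
  have : (swap N ℓ x y h hℓ).comp (swap N ℓ x y h hℓ) = RingHom.id (FN (N * ℓ)) := by
    apply ringHom_ext_bar
    · intro a
      rw [RingHom.comp_apply, swap_algebraMap, swap_algebraMap, RingHom.id_apply]
    · intro D _ hD
      rw [RingHom.comp_apply, RingHom.id_apply]
      by_cases hℓD : ℓ ∣ D
      · obtain ⟨d, rfl⟩ := hℓD
        have hd : d ∣ N := by
          rw [mul_comm N ℓ] at hD
          exact Nat.dvd_of_mul_dvd_mul_left hℓ.pos hD
        have : NeZero d := ⟨fun h0 => NeZero.ne (ℓ * d) (by rw [h0, mul_zero])⟩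
        rw [swap_jBar_mul N ℓ x y h hℓ d hd, swap_jBar N ℓ x y h hℓ d hd]
      · have hd : D ∣ N :=
          (Nat.Coprime.dvd_of_dvd_mul_right ((Nat.Prime.coprime_iff_not_dvd hℓ).mpr hℓD).symm hD)
        rw [swap_jBar N ℓ x y h hℓ D hd, swap_jBar_mul N ℓ x y h hℓ D hd]
  exact congrArg (fun φ => φ f) this

end Swap

/-- **The Atkin–Lehner swap** (existence statement, with involutivity). -/
theorem exists_swap' (N ℓ : ℕ) [NeZero N] [NeZero ℓ] (hℓ : ℓ.Prime) (hℓN : ¬ ℓ ∣ N) :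
    ∃ s : FN (N * ℓ) →+* FN (N * ℓ),
      (∀ a : Kb, s (algebraMap Kb _ a) = algebraMap Kb _ a) ∧
      (∀ f : FN N, s (heckeAlphaBar Kb N ℓ f) = heckeBetaBar Kb N ℓ f) ∧
      (∀ f : FN N, s (heckeBetaBar Kb N ℓ f) = heckeAlphaBar Kb N ℓ f) ∧
      (∀ f, s (s f) = f) := by
  have hcop : IsCoprime (ℓ : ℤ) (N : ℤ) :=
    Nat.isCoprime_iff_coprime.mpr ((Nat.Prime.coprime_iff_not_dvd hℓ).mpr hℓN)
  obtain ⟨a, b, hab⟩ := hcop
  have h : (ℓ : ℤ) * a - N * (-b) = 1 := by linear_combination hab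
  exact ⟨swap N ℓ a (-b) h hℓ, swap_algebraMap N ℓ a (-b) h hℓ, swap_alpha N ℓ a (-b) h hℓ,
    swap_beta N ℓ a (-b) h hℓ, swap_swap N ℓ a (-b) h hℓ⟩

/-- Two embeddings exchanged by an involution have the same degree. -/
theorem finrankAlong_eq_of_involution {K F F' : Type*} [Field K] [Field F] [Field F']
    [Algebra K F] [Algebra K F'] (α β : F →ₐ[K] F') (s : F' →+* F') (hs : ∀ f, s (s f) = f)
    (hα : ∀ f, s (α f) = β f) :
    AlgebraicCurve.finrankAlong K β = AlgebraicCurve.finrankAlong K α := by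
  let e : F' ≃+* F' := RingEquiv.ofRingHom s s (RingHom.ext hs) (RingHom.ext hs)
  exact (@Algebra.finrank_eq_of_equiv_equiv F F' _ _ (AlgebraicCurve.algebraAlong α) F F' _ _
    (AlgebraicCurve.algebraAlong β) (RingEquiv.refl F) e (RingHom.ext fun f => (hα f).symm)).symm

theorem finrankAlong_beta_eq_alpha (N ℓ : ℕ) [NeZero N] [NeZero ℓ] (hℓ : ℓ.Prime)
    (hℓN : ¬ ℓ ∣ N) :
    AlgebraicCurve.finrankAlong Kb (heckeBetaBar Kb N ℓ) =
      AlgebraicCurve.finrankAlong Kb (heckeAlphaBar Kb N ℓ) := by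
  obtain ⟨s, -, h2, -, h4⟩ := exists_swap' N ℓ hℓ hℓN
  exact finrankAlong_eq_of_involution _ _ s h4 h2

end

end Fermat.Agent.RED.ES
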