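import Mathlib
import Fermat.Prelude.Def_ModularCurve_X0ModL

/-!
# RED / ES : formal identities on Laurent series

* `rotR u` : the rotation `t ↦ u t` on Laurent series over any commutative ring;
* `pow_char_eq` : in characteristic `ℓ`, `x ^ ℓ = x^{(ℓ)}(t ^ ℓ)`;
* `coeffMap_prod_rotR` : the Kronecker congruence `∏_b y(ζ^b t) ≡ y ^ ℓ`.
-/

set_option autoImplicit false

open ModularCurve HahnSeries

namespace Fermat.Agent.RED.ES

noncomputable section

section Rot

variable {R S : Type*} [CommRing R] [CommRing S]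

/-- The rotation `t ↦ u t` on Laurent series, as a function. -/
def rotFun (u : Rˣ) (f : LaurentSeries R) : LaurentSeries R :=
  ⟨fun n : ℤ => ((u ^ n : Rˣ) : R) * f.coeff n, f.isPWO_support.mono (by
    intro n hn
    simp only [Function.mem_support, ne_eq] at hn
    intro h0
    exact hn (by rw [h0, mul_zero]))⟩

@[simp] theorem rotFun_coeff (u : Rˣ) (f : LaurentSeries R) (n : ℤ) :
    (rotFun u f).coeff n = ((u ^ n : Rˣ) : R) * f.coeff n := rfl

theorem rotFun_support (u : Rˣ) (f : LaurentSeries R) : (rotFun u f).support = f.support := by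
  ext n
  simp only [HahnSeries.mem_support, rotFun_coeff, ne_eq, Units.mul_right_eq_zero]

theorem rotFun_mul (u : Rˣ) (f g : LaurentSeries R) :
    rotFun u (f * g) = rotFun u f * rotFun u g := by
  ext n
  rw [rotFun_coeff, HahnSeries.coeff_mul, HahnSeries.coeff_mul, Finset.mul_sum]
  have hs : Finset.antidiagonal (rotFun u f).isPWO_support (rotFun u g).isPWO_support n
      = Finset.antidiagonal f.isPWO_support g.isPWO_support n := by
    ext p
    simp only [Finset.mem_antidiagonal, rotFun_support]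
  rw [hs]
  refine Finset.sum_congr rfl ?_
  intro p hp
  have hp' : p.1 + p.2 = n := (Finset.mem_antidiagonal.mp hp).2.2
  rw [rotFun_coeff, rotFun_coeff, ← hp', zpow_add, Units.val_mul]
  ring

/-- The rotation `t ↦ u t` on Laurent series, as a ring homomorphism. -/
def rotR (u : Rˣ) : LaurentSeries R →+* LaurentSeries R where
  toFun := rotFun u
  map_one' := by
    ext n
    rw [rotFun_coeff, HahnSeries.coeff_one]
    split_ifs with h
    · subst h; simp
    · simp
  map_mul' := rotFun_mul u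
  map_zero' := by ext n; simp
  map_add' f g := by ext n; simp [mul_add]

@[simp] theorem rotR_coeff (u : Rˣ) (f : LaurentSeries R) (n : ℤ) :
    (rotR u f).coeff n = ((u ^ n : Rˣ) : R) * f.coeff n := rfl

@[simp] theorem rotR_one_left (f : LaurentSeries R) : rotR (1 : Rˣ) f = f := by
  ext n; simp

theorem rotR_rotR (u v : Rˣ) (f : LaurentSeries R) : rotR u (rotR v f) = rotR (u * v) f := by
  ext n
  simp only [rotR_coeff, mul_zpow, Units.val_mul, mul_assoc]

theorem rotR_injective (u : Rˣ) : Function.Injective (rotR u) := by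
  intro f g h
  have := congrArg (rotR u⁻¹) h
  simpa [rotR_rotR] using this

@[simp] theorem rotR_single (u : Rˣ) (k : ℤ) (a : R) :
    rotR u (HahnSeries.single k a) = HahnSeries.single k (((u ^ k : Rˣ) : R) * a) := by
  ext n
  rcases eq_or_ne n k with rfl | hn
  · simp
  · simp [HahnSeries.coeff_single_of_ne hn]

theorem coeffMap_rotR (f : R →+* S) (u : Rˣ) (x : LaurentSeries R) :
    coeffMap f (rotR u x) = rotR (Units.map (f : R →* S) u) (coeffMap f x) := by
  ext n
  rw [coeffMap_coeff, rotR_coeff, rotR_coeff, coeffMap_coeff, map_mul, ← map_zpow]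
  rfl

theorem rotR_qExpand (n : ℕ) [NeZero n] (u : Rˣ) (hu : u ^ n = 1) (x : LaurentSeries R) :
    rotR u (qExpand R n x) = qExpand R n x := by
  ext m
  rw [rotR_coeff]
  by_cases hm : (n : ℤ) ∣ m
  · obtain ⟨c, rfl⟩ := hm
    rw [zpow_mul, zpow_natCast, hu, one_zpow, Units.val_one, one_mul]
  · rw [qExpand_coeff_of_not_dvd n _ hm, mul_zero]

end Rot

section Frobenius

variable {k : Type*} [CommRing k] (ℓ : ℕ) [NeZero ℓ]

theorem qExpand_ofPowerSeries (p : PowerSeries k) :
    qExpand k ℓ (HahnSeries.ofPowerSeries ℤ k p)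
      = HahnSeries.ofPowerSeries ℤ k (p.expand ℓ (NeZero.ne ℓ)) := by
  ext m
  rcases le_or_gt 0 m with hm | hm
  · lift m to ℕ using hm
    rw [HahnSeries.ofPowerSeries_apply_coeff, PowerSeries.coeff_expand]
    split_ifs with h
    · obtain ⟨c, rfl⟩ := h
      rw [Nat.mul_div_cancel_left _ (Nat.pos_of_ne_zero (NeZero.ne ℓ)), Nat.cast_mul,
        qExpand_coeff_mul, HahnSeries.ofPowerSeries_apply_coeff]
    · exact qExpand_coeff_of_not_dvd ℓ _ (by exact_mod_cast h)
  · rw [ofPowerSeries_coeff_of_neg _ hm]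
    by_cases h : (ℓ : ℤ) ∣ m
    · obtain ⟨c, rfl⟩ := h
      rw [qExpand_coeff_mul]
      refine ofPowerSeries_coeff_of_neg _ ?_
      have hℓ : (0 : ℤ) < ℓ := by exact_mod_cast Nat.pos_of_ne_zero (NeZero.ne ℓ)
      by_contra hc
      exact absurd hm (not_lt.mpr (mul_nonneg hℓ.le (not_lt.mp hc)))
    · exact qExpand_coeff_of_not_dvd ℓ _ h

/-- In characteristic `ℓ`: `x ^ ℓ = x^{(ℓ)}(t ^ ℓ)`. -/
theorem pow_char_eq [ExpChar k ℓ] (x : LaurentSeries k) :
    x ^ ℓ = qExpand k ℓ (coeffMap (frobenius k ℓ) x) := by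
  have h : (x.powerSeriesPart.expand ℓ (NeZero.ne ℓ)).map (frobenius k ℓ)
      = x.powerSeriesPart ^ ℓ :=
    MvPowerSeries.map_frobenius_expand ℓ (NeZero.ne ℓ)
  have h1 : (HahnSeries.single x.order (1 : k)) ^ ℓ = HahnSeries.single ((ℓ : ℤ) * x.order) 1 := by
    rw [HahnSeries.single_pow, one_pow, nsmul_eq_mul]
  have h2 : qExpand k ℓ (coeffMap (frobenius k ℓ) (HahnSeries.single x.order (1 : k)))
      = HahnSeries.single ((ℓ : ℤ) * x.order) 1 := by
    rw [coeffMap_single, qExpand_single, map_one]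
  have h3 : qExpand k ℓ (coeffMap (frobenius k ℓ)
      (HahnSeries.ofPowerSeries ℤ k x.powerSeriesPart))
      = (HahnSeries.ofPowerSeries ℤ k x.powerSeriesPart) ^ ℓ := by
    rw [coeffMap_ofPowerSeries, qExpand_ofPowerSeries, ← PowerSeries.map_expand, h, map_pow]
  have hx := LaurentSeries.single_order_mul_powerSeriesPart x
  calc x ^ ℓ = (HahnSeries.single x.order (1 : k)
        * HahnSeries.ofPowerSeries ℤ k x.powerSeriesPart) ^ ℓ := by
        congr 1; exact hx.symm
    _ = qExpand k ℓ (coeffMap (frobenius k ℓ) (HahnSeries.single x.order (1 : k)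
        * HahnSeries.ofPowerSeries ℤ k x.powerSeriesPart)) := by
        rw [mul_pow, map_mul, map_mul, h1, h2, h3]
    _ = _ := by
        congr 2

end Frobenius

section Congruence

variable {A L k : Type*} [CommRing A] [CommRing L] [CommRing k]

/-- The Kronecker congruence: `∏_b y(ζ^b t) ≡ y ^ ℓ` if `ζ ≡ 1`. -/
theorem coeffMap_prod_rotR (π : A →+* k) (ζ : Aˣ) (hζ : π ζ = 1) (ℓ : ℕ) (y : LaurentSeries A) :
    coeffMap π (∏ b ∈ Finset.range ℓ, rotR (ζ ^ b) y) = (coeffMap π y) ^ ℓ := by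
  have h1 : Units.map (π : A →* k) ζ = 1 := Units.ext hζ
  rw [map_prod]
  have : ∀ b ∈ Finset.range ℓ, coeffMap π (rotR (ζ ^ b) y) = coeffMap π y := by
    intro b _
    rw [coeffMap_rotR, map_pow, h1, one_pow, rotR_one_left]
  rw [Finset.prod_congr rfl this, Finset.prod_const, Finset.card_range]

/-- Extracting the coefficients of index divisible by `n`. -/
def qContract (n : ℕ) [NeZero n] (w : LaurentSeries A) : LaurentSeries A :=
  HahnSeries.ofSuppBddBelow (fun m : ℤ => w.coeff ((n : ℤ) * m))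
    ⟨min w.order 0, fun m hm => not_lt.mp fun hlt => hm (by
      refine HahnSeries.coeff_eq_zero_of_lt_order ?_
      have h1 : m < w.order := lt_of_lt_of_le hlt (min_le_left _ _)
      have h2 : m < 0 := lt_of_lt_of_le hlt (min_le_right _ _)
      have hn : (1 : ℤ) ≤ n := by exact_mod_cast Nat.pos_of_ne_zero (NeZero.ne n)
      nlinarith)⟩

@[simp] theorem qContract_coeff (n : ℕ) [NeZero n] (w : LaurentSeries A) (m : ℤ) :
    (qContract n w).coeff m = w.coeff ((n : ℤ) * m) := rfl

theorem exists_of_qExpand_eq (ι : A →+* L) (hι : Function.Injective ι) (n : ℕ) [NeZero n]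
    (z : LaurentSeries L) (w : LaurentSeries A) (h : qExpand L n z = coeffMap ι w) :
    ∃ z₀ : LaurentSeries A, coeffMap ι z₀ = z ∧ qExpand A n z₀ = w := by
  refine ⟨qContract n w, ?_, ?_⟩
  · ext m
    rw [coeffMap_coeff, qContract_coeff, ← coeffMap_coeff, ← h, qExpand_coeff_mul]
  · ext m
    by_cases hm : (n : ℤ) ∣ m
    · obtain ⟨c, rfl⟩ := hm
      rw [qExpand_coeff_mul, qContract_coeff]
    · rw [qExpand_coeff_of_not_dvd n _ hm]
      apply hι
      rw [map_zero, ← coeffMap_coeff, ← h, qExpand_coeff_of_not_dvd n _ hm]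

/-- The formal part of the Kronecker congruence for the norm `N(y(q^ℓ))`. -/
theorem kronecker_formal (ι : A →+* L) (hι : Function.Injective ι) (π : A →+* k)
    (ℓ : ℕ) [NeZero ℓ] [ExpChar k ℓ] (ζ : Aˣ) (hζ : π ζ = 1)
    (y₀ : LaurentSeries A) (z : LaurentSeries L)
    (h : qExpand L ℓ z = qExpand L ℓ (qExpand L ℓ (coeffMap ι y₀)) *
      ∏ b ∈ Finset.range ℓ, rotR ((Units.map (ι : A →* L) ζ) ^ b) (coeffMap ι y₀)) :
    ∃ z₀ : LaurentSeries A, coeffMap ι z₀ = z ∧
      coeffMap π z₀ = qExpand k ℓ (coeffMap π y₀) * coeffMap (frobenius k ℓ) (coeffMap π y₀) := by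
  set w : LaurentSeries A := qExpand A ℓ (qExpand A ℓ y₀) *
    ∏ b ∈ Finset.range ℓ, rotR (ζ ^ b) y₀ with hw
  have hιw : coeffMap ι w = qExpand L ℓ z := by
    rw [h, hw, map_mul, coeffMap_qExpand, coeffMap_qExpand, map_prod]
    congr 1
    refine Finset.prod_congr rfl fun b _ => ?_
    rw [coeffMap_rotR, map_pow]
  obtain ⟨z₀, hz₀, hz₀w⟩ := exists_of_qExpand_eq ι hι ℓ z w hιw.symm
  refine ⟨z₀, hz₀, ?_⟩
  apply qExpand_injective (R := k) ℓ
  rw [← coeffMap_qExpand, hz₀w, hw, map_mul, coeffMap_prod_rotR π ζ hζ, coeffMap_qExpand,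
    coeffMap_qExpand, map_mul, pow_char_eq]

end Congruence

end

end Fermat.Agent.RED.ES
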