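import Fermat.Statements.S37
import Fermat.Agent.S54.Frobenius

/-!
# RED / ES : abstract assembly of `SpecializationExists`

Given, for every prime `ℓ ∤ N p` and every place `A` above `ℓ`, a homomorphism `red` from `J` to
some abelian group with a "Frobenius" `Fr` and a "Verschiebung" `V` (`V ∘ Fr = ℓ`), compatible with
inertia, Frobenius lifts and `T_ℓ = Fr + V`, injective on `p`-power torsion, we obtain
`SpecializationExists`.  The target `J'` is the quotient of `J` by the largest Hecke submodule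
contained in the kernel of `red`.
-/

set_option autoImplicit false

open ModularCurve

namespace Fermat.Agent.RED.ES

noncomputable section

section General

variable {K L : Type*} [Field K] [Field L] [Algebra K L]
variable (p : ℕ) (J : Type) [AddCommGroup J] [Module HeckeAlg J]
  [DistribMulAction (L ≃ₐ[K] L) J] [SMulCommClass (L ≃ₐ[K] L) HeckeAlg J]

/-- The largest Hecke submodule contained in the kernel of `red`. -/
def heckeCore {Jb : Type*} [AddCommGroup Jb] (red : J →+ Jb) : Submodule HeckeAlg J where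
  carrier := {x | ∀ T : HeckeAlg, red (T • x) = 0}
  zero_mem' := fun T => by simp
  add_mem' := fun {x y} hx hy T => by rw [smul_add, map_add, hx T, hy T, add_zero]
  smul_mem' := fun c x hx T => by rw [← mul_smul]; exact hx _

theorem mem_heckeCore {Jb : Type*} [AddCommGroup Jb] (red : J →+ Jb) (x : J) :
    x ∈ heckeCore J red ↔ ∀ T : HeckeAlg, red (T • x) = 0 := Iff.rfl

/-- The data on the special fibre. -/
structure RedData (A : ValuationSubring L) (ℓ : ℕ) (hℓ : ℓ.Prime) {Jb : Type*} [AddCommGroup Jb]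
    (red : J →+ Jb) (Fr V : Jb →+ Jb) : Prop where
  inertia : ∀ σ ∈ A.inertiaSubgroupIn K, ∀ x : J, red (σ • x) = red x
  frobenius : ∀ σ : L ≃ₐ[K] L, A.IsFrobeniusAt σ ℓ → ∀ x : J, red (σ • x) = Fr (red x)
  hecke : ∀ x : J, red (heckeGen ⟨ℓ, hℓ⟩ • x) = Fr (red x) + V (red x)
  ver_frob : ∀ y : Jb, V (Fr y) = ℓ • y
  injective_torsion : ∀ x : J, (∃ n : ℕ, p ^ n • x = 0) → red x = 0 → x = 0

variable {p J}

theorem exists_specialization {A : ValuationSubring L} {ℓ : ℕ} {hℓ : ℓ.Prime}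
    {Jb : Type*} [AddCommGroup Jb] {red : J →+ Jb} {Fr V : Jb →+ Jb}
    (h : RedData (K := K) p J A ℓ hℓ red Fr V) (σ₀ : L ≃ₐ[K] L) (hσ₀ : A.IsFrobeniusAt σ₀ ℓ) :
    ∃ (J' : Type) (_ : AddCommGroup J') (_ : Module HeckeAlg J') (sp : J →+ J')
      (F : J' →+ J'),
      IsSpecialization (K := K) p J J' A ℓ sp F ∧ SpecialFibreRelation J' ℓ hℓ F := by
  set M : Submodule HeckeAlg J := heckeCore J red with hM
  have hσM : ∀ x ∈ M, σ₀ • x ∈ M := by
    intro x hx T
    rw [← smul_comm σ₀ T x, h.frobenius σ₀ hσ₀, hx T, map_zero]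
  -- the map induced by `σ₀` on the quotient
  let σlin : J →+ J := DistribSMul.toAddMonoidHom J σ₀
  let F : (J ⧸ M) →+ (J ⧸ M) :=
    QuotientAddGroup.map M.toAddSubgroup M.toAddSubgroup σlin (fun x hx => hσM x hx)
  have hF : ∀ x : J, F (M.mkQ x) = M.mkQ (σ₀ • x) := fun x => rfl
  refine ⟨J ⧸ M, inferInstance, inferInstance, M.mkQ.toAddMonoidHom, F, ?_, ?_⟩
  · refine ⟨fun T x => rfl, ?_, ?_, ?_⟩
    · intro σ hσ x
      change M.mkQ (σ • x) = M.mkQ x
      rw [← sub_eq_zero, ← map_sub, Submodule.mkQ_apply, Submodule.Quotient.mk_eq_zero]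
      intro T
      rw [smul_sub, map_sub, ← smul_comm σ T x, h.inertia σ hσ, sub_self]
    · intro σ hσ x
      change M.mkQ (σ • x) = F (M.mkQ x)
      rw [hF, ← sub_eq_zero, ← map_sub, Submodule.mkQ_apply, Submodule.Quotient.mk_eq_zero]
      intro T
      rw [smul_sub, map_sub, ← smul_comm σ T x, ← smul_comm σ₀ T x, h.frobenius σ hσ,
        h.frobenius σ₀ hσ₀, sub_self]
    · intro x hx hx0
      change M.mkQ x = 0 at hx0
      rw [Submodule.mkQ_apply, Submodule.Quotient.mk_eq_zero] at hx0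
      have := hx0 1
      rw [one_smul] at this
      exact h.injective_torsion x hx this
  · intro y
    obtain ⟨x, rfl⟩ := M.mkQ_surjective y
    rw [hF, hF, ← map_smul, ← map_nsmul, ← map_sub, ← map_add, Submodule.mkQ_apply,
      Submodule.Quotient.mk_eq_zero]
    intro T
    have e1 : T • (σ₀ • σ₀ • x) = σ₀ • σ₀ • (T • x) := by
      rw [smul_comm σ₀ T, smul_comm σ₀ T]
    have e2 : T • (heckeGen ⟨ℓ, hℓ⟩ • σ₀ • x) = heckeGen ⟨ℓ, hℓ⟩ • σ₀ • (T • x) := by
      rw [smul_comm σ₀ T, ← mul_smul, ← mul_smul, mul_comm]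
    have e3 : T • (ℓ • x) = ℓ • (T • x) := smul_comm T ℓ x
    rw [smul_add, smul_sub, e1, e2, e3, map_add, map_sub, h.frobenius σ₀ hσ₀,
      h.frobenius σ₀ hσ₀, h.hecke, h.frobenius σ₀ hσ₀, h.ver_frob, map_nsmul]
    abel

end General

/-- `SpecializationExists` from reduction data at every place. -/
theorem specializationExists_of (N p : ℕ) (J : Type) [AddCommGroup J] [Module HeckeAlg J]
    [DistribMulAction (AlgebraicClosure ℚ ≃ₐ[ℚ] AlgebraicClosure ℚ) J]
    [SMulCommClass (AlgebraicClosure ℚ ≃ₐ[ℚ] AlgebraicClosure ℚ) HeckeAlg J]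
    (H : ∀ ℓ : ℕ, (hℓ : ℓ.Prime) → ¬ ℓ ∣ N * p →
      ∀ A : ValuationSubring (AlgebraicClosure ℚ), A.LiesOverPrime ℓ →
        ∃ (Jb : Type) (_ : AddCommGroup Jb) (red : J →+ Jb) (Fr V : Jb →+ Jb),
          RedData (K := ℚ) p J A ℓ hℓ red Fr V) :
    SpecializationExists (K := ℚ) (L := AlgebraicClosure ℚ) N p J := by
  intro ℓ hℓ hℓNp A hA
  obtain ⟨Jb, _, red, Fr, V, h⟩ := H ℓ hℓ hℓNp A hA
  obtain ⟨σ₀, hσ₀⟩ := Fermat.Agent.S54.exists_isFrobeniusAt_of_liesOverPrime hℓ A hA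
  exact exists_specialization h σ₀ hσ₀

end

end Fermat.Agent.RED.ES
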