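import Fermat.Agent.RED.ES.Norm
import Fermat.Agent.RED.ES.SwapInv
import Fermat.Agent.RED.ES.Unique
import Fermat.Agent.RED.GalEq.NonConst
import Fermat.Agent.GAL.HeckeInputs

/-!
# RED / ES : the Eichler–Shimura congruence on divisors, at one level `M`, `ℓ ∤ M`

For a place reduction `r` (Prelude `IsPlaceReductionAlong` + `PrincipalGeneratedByIntegral`):
`r_* (T_ℓ D) = σ • r_* D + ℓ • σ⁻¹ • r_* D` for **all** divisors `D`, `σ` the coefficient Frobenius.
-/

set_option autoImplicit false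
set_option linter.style.haveILetI false

open AlgebraicCurve AlgebraicCurve.SemilinearAut ModularCurve
open Fermat.Agent.S24 Fermat.Agent.GAL.HeckeInputs

namespace Fermat.Agent.RED.ES

noncomputable section

section Generic

variable {K F F' : Type*} [Field K] [Field F] [Field F'] [Algebra K F] [Algebra K F']

theorem pullbackAlong_nonneg [HasPrincipalDivisors K F'] (φ : F →ₐ[K] F')
    (hφ : φ.toRingHom.IsIntegral) {D : Divisor K F} (hD : 0 ≤ D) :
    0 ≤ Divisor.pullbackAlong φ hφ D := by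
  intro w
  rw [Divisor.pullbackAlong_apply]
  exact mul_nonneg (Int.natCast_nonneg _) (hD _)

theorem pushforwardAlong_nonneg (φ : F →ₐ[K] F')
    (hφ : φ.toRingHom.IsIntegral) {D : Divisor K F'} (hD : 0 ≤ D) :
    0 ≤ Divisor.pushforwardAlong φ hφ D := by
  classical
  letI := algebraAlong φ
  haveI := isScalarTower_along φ
  haveI := isIntegral_along φ hφ
  intro v
  show (0 : ℤ) ≤ Divisor.pushforward F D v
  rw [Divisor.pushforward_apply]
  refine Finset.sum_nonneg fun w _ => ?_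
  split_ifs
  · exact mul_nonneg (hD w) (Int.natCast_nonneg _)
  · exact le_rfl

theorem correspondence_apply_of_isDiv [HasPrincipalDivisors K F'] (φ ψ : F →ₐ[K] F')
    (hφ : φ.toRingHom.IsIntegral) (hψ : ψ.toRingHom.IsIntegral)
    (hfin : FiniteAlong K ψ) (hN : NormFormulaAlong K ψ hfin)
    {f : F} (hf : f ≠ 0) {D : Divisor K F} (hD : ∀ P, D P = P.ord f) (P : Place K F) :
    Divisor.correspondence φ ψ hφ hψ D P =
      P.ord (letI := algebraAlong ψ; Algebra.norm F (φ f)) := by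
  have h1 : ∀ w : Place K F', Divisor.pullbackAlong φ hφ D w = w.ord (φ f) := by
    intro w
    rw [Divisor.pullbackAlong_apply, Place.ord_restrictAlong φ hφ, hD]
  have hφf : φ f ≠ 0 := by simpa using hf
  letI := algebraAlong ψ
  haveI := isScalarTower_along ψ
  haveI := isIntegral_along ψ hψ
  haveI : Module.Finite F F' := hfin
  exact hN (φ f) hφf _ h1 P

end Generic

section Level

variable {M ℓ : ℕ} [NeZero M] [NeZero ℓ]
variable {A : ValuationSubring Kb} {k : Type*} [Field k] {π : A →+* k}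
variable {r : Place Kb (FN M) → Place k (modularFunctionFieldFullC k M)}

/-- `T_ℓ` on divisors of level `M`. -/
abbrev TDiv (M ℓ : ℕ) [NeZero M] [NeZero ℓ] : Divisor Kb (FN M) →+ Divisor Kb (FN M) :=
  heckeDivBar (heckeAlphaBarIntegral M ℓ) (heckeBetaBarIntegral M ℓ)

theorem TDiv_apply_of_isDiv {f : FN M} (hf : f ≠ 0) {D : Divisor Kb (FN M)}
    (hD : ∀ P, D P = P.ord f) (P : Place Kb (FN M)) :
    TDiv M ℓ D P = P.ord (letI := algebraAlong (heckeAlphaBar Kb M ℓ);
      Algebra.norm (FN M) (heckeBetaBar Kb M ℓ f)) :=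
  correspondence_apply_of_isDiv _ _ _ _ (finiteAlong_alpha M ℓ) (normFormulaAlong_alpha M ℓ) hf hD P

omit [NeZero ℓ] in
theorem coeffMap_ringEquiv_eq_frobenius [ExpChar k ℓ] (φ : k ≃+* k) (hφ : ∀ x, φ x = x ^ ℓ) :
    (φ : k →+* k) = frobenius k ℓ := RingHom.ext fun x => by
  rw [frobenius_def]; exact hφ x

set_option maxHeartbeats 1600000 in
/-- The congruence on the generators of the group of principal divisors. -/
theorem mapDomain_TDiv_of_mem_integral (hℓ : ℓ.Prime) (hℓM : ¬ ℓ ∣ M) [ExpChar k ℓ]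
    (φ : k ≃+* k) (hφ : ∀ x, φ x = x ^ ℓ) (hr : IsPlaceReductionAlong A π M r)
    {D : Divisor Kb (FN M)} (hD : D ∈ integralPrincipalDivisors A π M) :
    Finsupp.mapDomain r (TDiv M ℓ D) =
      coeffSemiC M φ • Finsupp.mapDomain r D + ℓ • ((coeffSemiC M φ)⁻¹ • Finsupp.mapDomain r D) := by
  obtain ⟨y, hy, hyk, hne, hDy⟩ := hD
  obtain ⟨z₀, hz₀, hπz₀⟩ := norm_congruence M ℓ hℓ hℓM A π y hy
  set σ := coeffSemiC M φ with hσ
  set f : FN M := ⟨coeffMap A.subtype y, hy⟩ with hf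
  set fb : modularFunctionFieldFullC k M := ⟨coeffMap π y, hyk⟩ with hfb
  have hfb0 : fb ≠ 0 := fun h => hne (congrArg Subtype.val h)
  have hf0 : f ≠ 0 := by
    intro h
    have h1 : coeffMap A.subtype y = 0 := congrArg Subtype.val h
    have h2 : y = 0 := by
      ext n
      have := congrArg (fun s => s.coeff n) h1
      simpa using this
    exact hne (by rw [h2, map_zero])
  have hφ' := coeffMap_ringEquiv_eq_frobenius (ℓ := ℓ) φ hφ
  have e1 : coeffMap (frobenius k ℓ) (coeffMap π y) =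
      ((σ • fb : modularFunctionFieldFullC k M) : LaurentSeries k) := by
    rw [hσ, coe_coeffSemiC_smul, ← hφ']
  have e2 : qExpand k ℓ (coeffMap π y) =
      (((σ⁻¹ • fb) ^ ℓ : modularFunctionFieldFullC k M) : LaurentSeries k) := by
    have h1 : ((σ • (σ⁻¹ • fb) : modularFunctionFieldFullC k M) : LaurentSeries k) =
        coeffMap (frobenius k ℓ) ((σ⁻¹ • fb : modularFunctionFieldFullC k M) : LaurentSeries k) := by
      rw [hσ, coe_coeffSemiC_smul, ← hφ']
    rw [smul_inv_smul] at h1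
    rw [SubmonoidClass.coe_pow, pow_char_eq, ← h1]
  have e3 : coeffMap π z₀ =
      (((σ⁻¹ • fb) ^ ℓ * (σ • fb) : modularFunctionFieldFullC k M) : LaurentSeries k) := by
    rw [hπz₀, e1, e2]
    rfl
  have hzk : coeffMap π z₀ ∈ modularFunctionFieldFullC k M := by
    rw [e3]; exact Subtype.property _
  have hz : coeffMap A.subtype z₀ ∈ modularFunctionFieldBar M := by
    rw [hz₀]; exact Subtype.property _
  have h1 : σ⁻¹ • fb ≠ 0 := by simpa using hfb0
  have h2 : σ • fb ≠ 0 := by simpa using hfb0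
  have hzne : coeffMap π z₀ ≠ 0 := by
    rw [e3]
    intro h
    exact mul_ne_zero (pow_ne_zero ℓ h1) h2 (Subtype.ext h)
  have E3 : (⟨coeffMap π z₀, hzk⟩ : modularFunctionFieldFullC k M) =
      (σ⁻¹ • fb) ^ ℓ * (σ • fb) := Subtype.ext e3
  have hbar : ∀ Q, Finsupp.mapDomain r D Q = Q.ord fb := hr.2 y hy hyk hne D hDy
  ext Q
  rw [hr.2 z₀ hz hzk hzne (TDiv M ℓ D) (fun P => by
    rw [TDiv_apply_of_isDiv hf0 hDy P]
    congr 1
    exact Subtype.ext hz₀.symm) Q, E3, Q.ord_mul (pow_ne_zero ℓ h1) h2, Place.ord_pow,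
    Finsupp.add_apply, Finsupp.smul_apply, divisor_smul_apply, divisor_smul_apply, hbar, hbar,
    GalEq.ord_inv_smul_place, inv_inv, GalEq.ord_smul_place, nsmul_eq_mul, add_comm]

set_option maxHeartbeats 1600000 in
/-- The congruence on principal divisors. -/
theorem mapDomain_TDiv_of_mem_principal (hℓ : ℓ.Prime) (hℓM : ¬ ℓ ∣ M) [ExpChar k ℓ]
    (φ : k ≃+* k) (hφ : ∀ x, φ x = x ^ ℓ) (hr : IsPlaceReductionAlong A π M r)
    (hgen : PrincipalGeneratedByIntegral A π M)
    {D : Divisor Kb (FN M)} (hD : D ∈ Divisor.principal (K := Kb) (F := FN M)) :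
    Finsupp.mapDomain r (TDiv M ℓ D) =
      coeffSemiC M φ • Finsupp.mapDomain r D + ℓ • ((coeffSemiC M φ)⁻¹ • Finsupp.mapDomain r D) := by
  have hD' := hgen hD
  clear hD
  induction hD' using AddSubgroup.closure_induction with
  | mem E hE => exact mapDomain_TDiv_of_mem_integral hℓ hℓM φ hφ hr hE
  | zero => simp
  | add E E' _ _ hE hE' =>
    rw [map_add, Finsupp.mapDomain_add, Finsupp.mapDomain_add, hE, hE', smul_add, smul_add,
      smul_add]
    abel
  | neg E _ hE =>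
    have hneg : ∀ X : Divisor Kb (FN M), Finsupp.mapDomain r (-X) = -Finsupp.mapDomain r X :=
      fun X => map_neg (Finsupp.mapDomain.addMonoidHom r) X
    rw [map_neg, hneg, hneg, hE, smul_neg, smul_neg, smul_neg]
    abel

end Level

section ThreeValues

variable {K F : Type*} [Field K] [Field F] [Algebra K F] {x : F}

theorem exists_zero_of_isSepParam [IsAlgClosed K] (hx : IsSepParam K x) :
    ∃ v : Place K F, 0 < v.ord x := by
  have h := hx.sum_zeros
  have hpos := hx.finrank_pos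
  obtain ⟨v, hv, -⟩ := Finset.exists_ne_zero_of_sum_ne_zero (by rw [h]; exact_mod_cast hpos.ne')
  exact ⟨v, (hx.finite_zeros.mem_toFinset).1 hv⟩

theorem exists_pole_of_isSepParam [IsAlgClosed K] (hx : IsSepParam K x) :
    ∃ v : Place K F, v.ord x < 0 := by
  obtain ⟨v, hv⟩ := exists_zero_of_isSepParam hx.inv
  exact ⟨v, by rw [Place.ord_inv] at hv; omega⟩

/-- Three distinct places: a zero of `x`, a zero of `x - 1`, a pole of `x`. -/
theorem exists_three_places [IsAlgClosed K] (hx : IsSepParam K x) :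
    ∃ Q₀ Q₁ Q₂ : Place K F, Q₀.ord x ≠ 0 ∧ Q₁.ord (x - 1) ≠ 0 ∧ Q₂.ord x ≠ 0 ∧
      Q₀ ≠ Q₁ ∧ Q₀ ≠ Q₂ ∧ Q₁ ≠ Q₂ := by
  obtain ⟨Q₀, h0⟩ := exists_zero_of_isSepParam hx
  obtain ⟨Q₂, h2⟩ := exists_pole_of_isSepParam hx
  obtain ⟨Q₁, h1⟩ := exists_zero_of_isSepParam (hx.sub_const 1)
  rw [map_one] at h1
  have hx0 : x ≠ 0 := hx.ne_zero
  have hx1 : x - 1 ≠ 0 := by
    intro h
    rw [h, Place.ord_zero] at h1
    exact lt_irrefl _ h1
  refine ⟨Q₀, Q₁, Q₂, h0.ne', h1.ne', h2.ne, ?_, ?_, ?_⟩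
  · rintro rfl
    have h3 := Place.ord_add_ge Q₀ hx0 (neg_ne_zero.mpr hx1) (by simp)
    rw [Place.ord_neg, show x + -(x - 1) = 1 by ring, Place.ord_one] at h3
    have := lt_min h0 h1
    omega
  · rintro rfl
    omega
  · rintro rfl
    have h3 := Place.ord_add_eq_of_lt Q₁ hx0 (neg_ne_zero.mpr one_ne_zero)
      (by rw [Place.ord_neg, Place.ord_one]; exact h2)
    rw [← sub_eq_add_neg] at h3
    omega

theorem exists_ne_ne_of_three {α : Type*} {x₀ x₁ x₂ : α} (h01 : x₀ ≠ x₁) (h02 : x₀ ≠ x₂)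
    (h12 : x₁ ≠ x₂) (a b : α) :
    (x₀ ≠ a ∧ x₀ ≠ b) ∨ (x₁ ≠ a ∧ x₁ ≠ b) ∨ (x₂ ≠ a ∧ x₂ ≠ b) := by
  by_cases e0a : x₀ = a <;> by_cases e0b : x₀ = b <;> by_cases e1a : x₁ = a <;>
    by_cases e1b : x₁ = b <;> by_cases e2a : x₂ = a <;> by_cases e2b : x₂ = b <;>
    simp_all

end ThreeValues

section Main

variable {M ℓ : ℕ} [NeZero M] [NeZero ℓ]
variable {A : ValuationSubring Kb} {k : Type*} [Field k] {π : A →+* k}
variable {r : Place Kb (FN M) → Place k (modularFunctionFieldFullC k M)}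

theorem isSepParam_jF' (M : ℕ) [NeZero M] : IsSepParam Kb (jF M) :=
  IsSepParam.of_charZero (isFiniteParam_jF M)

/-- A place where the reduction of an integral function has a zero or a pole is in the range
of `r`. -/
theorem mem_range_of_ord_ne_zero (hr : IsPlaceReductionAlong A π M r) (y : LaurentSeries A)
    (hy : coeffMap A.subtype y ∈ modularFunctionFieldBar M)
    (hyk : coeffMap π y ∈ modularFunctionFieldFullC k M) (hne : coeffMap π y ≠ 0)
    (Q : Place k (modularFunctionFieldFullC k M))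
    (hQ : Q.ord (⟨coeffMap π y, hyk⟩ : modularFunctionFieldFullC k M) ≠ 0) : ∃ P, r P = Q := by
  by_contra hcon
  apply hQ
  rw [← hr.2 y hy hyk hne (dv Kb (⟨coeffMap A.subtype y, hy⟩ : FN M))
    (fun P => (isSepParam_jF' M).dv_apply _ P) Q]
  exact Finsupp.mapDomain_of_notMem_range _ _ (fun ⟨P, hP⟩ => hcon ⟨P, hP⟩)

/-- A place reduction takes at least three values. -/
theorem exists_three_values [IsAlgClosed k]
    (hjb : IsSepParam k (⟨jqModC k, jqModC_mem_full k M⟩ : modularFunctionFieldFullC k M))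
    (hr : IsPlaceReductionAlong A π M r) :
    ∃ P₀ P₁ P₂, r P₀ ≠ r P₁ ∧ r P₀ ≠ r P₂ ∧ r P₁ ≠ r P₂ := by
  obtain ⟨Q₀, Q₁, Q₂, h0, h1, h2, h01, h02, h12⟩ := exists_three_places hjb
  have hy : coeffMap A.subtype (jqModC A) ∈ modularFunctionFieldBar M := by
    rw [coeffMap_jqModC]; exact GalEq.jqModC_mem_laurentBaseChange
  have hyk : coeffMap π (jqModC A) ∈ modularFunctionFieldFullC k M := by
    rw [coeffMap_jqModC]; exact jqModC_mem_full k M
  have hne : coeffMap π (jqModC A) ≠ 0 := by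
    rw [coeffMap_jqModC]; exact jqModC_ne_zero_of_nontrivial k
  have e : (⟨coeffMap π (jqModC A), hyk⟩ : modularFunctionFieldFullC k M) =
      ⟨jqModC k, jqModC_mem_full k M⟩ := Subtype.ext (coeffMap_jqModC π)
  have hy' : coeffMap A.subtype (jqModC A - 1) ∈ modularFunctionFieldBar M := by
    rw [map_sub, map_one]; exact sub_mem hy (one_mem _)
  have hyk' : coeffMap π (jqModC A - 1) ∈ modularFunctionFieldFullC k M := by
    rw [map_sub, map_one]; exact sub_mem hyk (one_mem _)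
  have e' : (⟨coeffMap π (jqModC A - 1), hyk'⟩ : modularFunctionFieldFullC k M) =
      ⟨jqModC k, jqModC_mem_full k M⟩ - 1 :=
    Subtype.ext (show coeffMap π (jqModC A - 1) = jqModC k - 1 by
      rw [map_sub, map_one, coeffMap_jqModC])
  have hne' : coeffMap π (jqModC A - 1) ≠ 0 := by
    intro h
    have h3 : (⟨coeffMap π (jqModC A - 1), hyk'⟩ : modularFunctionFieldFullC k M) = 0 :=
      Subtype.ext h
    rw [e'] at h3
    rw [h3, Place.ord_zero] at h1
    exact h1 rfl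
  obtain ⟨P₀, rfl⟩ := mem_range_of_ord_ne_zero hr _ hy hyk hne Q₀ (by rw [e]; exact h0)
  obtain ⟨P₁, rfl⟩ := mem_range_of_ord_ne_zero hr _ hy' hyk' hne' Q₁ (by rw [e']; exact h1)
  obtain ⟨P₂, rfl⟩ := mem_range_of_ord_ne_zero hr _ hy hyk hne Q₂ (by rw [e]; exact h2)
  exact ⟨P₀, P₁, P₂, h01, h02, h12⟩

theorem cnt_mapDomain {L F k Fb : Type*} [Field L] [Field F] [Algebra L F] [Field k] [Field Fb]
    [Algebra k Fb] (r : Place L F → Place k Fb) (D : Divisor L F) :
    cnt (Finsupp.mapDomain r D) = cnt D := by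
  induction D using Finsupp.induction_linear with
  | zero => simp
  | add D E hD hE => rw [Finsupp.mapDomain_add, map_add, map_add, hD, hE]
  | single a n => rw [Finsupp.mapDomain_single, cnt_single, cnt_single]

theorem mapDomain_nonneg {α β : Type*} (r : α → β) {D : α →₀ ℤ} (hD : 0 ≤ D) :
    0 ≤ Finsupp.mapDomain r D := by
  classical
  intro b
  rw [Finsupp.mapDomain, Finsupp.sum_apply]
  refine Finset.sum_nonneg fun a _ => ?_
  show 0 ≤ (Finsupp.single (r a) (D a)) b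
  rw [Finsupp.single_apply]
  split_ifs
  · exact hD a
  · exact le_rfl

theorem single_one_nonneg {α : Type*} (a : α) : (0 : α →₀ ℤ) ≤ Finsupp.single a 1 := by
  classical
  intro b
  rw [Finsupp.single_apply]
  split_ifs <;> simp

theorem TDiv_single_nonneg (P : Place Kb (FN M)) : 0 ≤ TDiv M ℓ (Finsupp.single P 1) :=
  pushforwardAlong_nonneg (heckeAlphaBar Kb M ℓ) (heckeAlphaBarIntegral M ℓ)
    (pullbackAlong_nonneg (heckeBetaBar Kb M ℓ) (heckeBetaBarIntegral M ℓ) (single_one_nonneg P))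

theorem cnt_TDiv_single (hℓ : ℓ.Prime) (hℓM : ¬ ℓ ∣ M) (P : Place Kb (FN M)) :
    cnt (TDiv M ℓ (Finsupp.single P 1)) = ℓ + 1 := by
  have hdeg := (isSepParam_jF' M).deg_eq_one
  have h1 := Divisor.degree_correspondence (heckeBetaBar Kb M ℓ) (heckeAlphaBar Kb M ℓ)
    (heckeBetaBarIntegral M ℓ) (heckeAlphaBarIntegral M ℓ) (fundamentalIdentityAlong_beta M ℓ)
    (Finsupp.single P 1)
  have h2 : finrankAlong Kb (heckeAlphaBar Kb M ℓ) = ℓ + 1 := finrank_alpha_eq M ℓ hℓ hℓM
  rw [Divisor.degree_single, hdeg, finrankAlong_beta_eq_alpha M ℓ hℓ hℓM, h2] at h1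
  rw [cnt_eq_degree hdeg]
  refine h1.trans ?_
  push_cast
  ring

set_option maxHeartbeats 1600000 in
/-- **Eichler–Shimura on divisors** (level `M`, `ℓ ∤ M`). -/
theorem mapDomain_TDiv (hℓ : ℓ.Prime) (hℓM : ¬ ℓ ∣ M) [ExpChar k ℓ] [IsAlgClosed k]
    (hjb : IsSepParam k (⟨jqModC k, jqModC_mem_full k M⟩ : modularFunctionFieldFullC k M))
    (φ : k ≃+* k) (hφ : ∀ x, φ x = x ^ ℓ) (hr : IsPlaceReductionAlong A π M r)
    (hgen : PrincipalGeneratedByIntegral A π M) (D : Divisor Kb (FN M)) :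
    Finsupp.mapDomain r (TDiv M ℓ D) =
      coeffSemiC M φ • Finsupp.mapDomain r D + ℓ • ((coeffSemiC M φ)⁻¹ • Finsupp.mapDomain r D) := by
  set σ := coeffSemiC M φ with hσ
  set Φ₁ : Divisor Kb (FN M) →+ Divisor k (modularFunctionFieldFullC k M) :=
    (Finsupp.mapDomain.addMonoidHom r).comp (TDiv M ℓ) with hΦ₁
  set Φ₂ : Divisor Kb (FN M) →+ Divisor k (modularFunctionFieldFullC k M) :=
    AddMonoidHom.comp
      (DistribSMul.toAddMonoidHom (Divisor k (modularFunctionFieldFullC k M)) σ +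
        ℓ • DistribSMul.toAddMonoidHom (Divisor k (modularFunctionFieldFullC k M)) σ⁻¹)
      (Finsupp.mapDomain.addMonoidHom r) with hΦ₂
  have a1 : ∀ D, Φ₁ D = Finsupp.mapDomain r (TDiv M ℓ D) := fun _ => rfl
  have a2 : ∀ D, Φ₂ D = σ • Finsupp.mapDomain r D + ℓ • (σ⁻¹ • Finsupp.mapDomain r D) :=
    fun _ => rfl
  have s2 : ∀ P, Φ₂ (Finsupp.single P 1) =
      Finsupp.single (σ • r P) 1 + ℓ • Finsupp.single (σ⁻¹ • r P) 1 := by
    intro P
    rw [a2, Finsupp.mapDomain_single, smul_single, smul_single]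
  obtain ⟨P₀⟩ := (isSepParam_jF' M).nonempty_place
  have key := hom_eq_of_agree_on_principal (GalEq.hasEffRep_of_isSepParam (isSepParam_jF' M) P₀)
    (GalEq.cnt_eq_zero_of_isSepParam (isSepParam_jF' M)) Φ₁ Φ₂ (ℓ + 1)
    (fun P => by rw [a1]; exact mapDomain_nonneg r (TDiv_single_nonneg P))
    (fun P => by rw [a1, cnt_mapDomain, cnt_TDiv_single hℓ hℓM])
    (fun P => by
      rw [s2]
      exact add_nonneg (single_one_nonneg _) (nsmul_nonneg (single_one_nonneg _) ℓ))
    (fun P => by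
      rw [s2, map_add, map_nsmul, cnt_single, cnt_single]
      simp [add_comm])
    (fun D hD => by
      rw [a1, a2]
      exact mapDomain_TDiv_of_mem_principal hℓ hℓM φ hφ hr hgen hD)
    (fun Q => by
      obtain ⟨P₀, P₁, P₂, h01, h02, h12⟩ := exists_three_values hjb hr
      have hz : ∀ P, r P ≠ σ⁻¹ • Q ∧ r P ≠ σ • Q → Φ₂ (Finsupp.single P 1) Q = 0 := by
        rintro P ⟨h1, h2⟩
        rw [s2, Finsupp.add_apply, Finsupp.smul_apply,
          Finsupp.single_eq_of_ne (fun h => h1 (by rw [h, inv_smul_smul])),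
          Finsupp.single_eq_of_ne (fun h => h2 (by rw [h, smul_inv_smul]))]
        simp
      rcases exists_ne_ne_of_three h01 h02 h12 (σ⁻¹ • Q) (σ • Q) with h | h | h
      · exact ⟨_, hz _ h⟩
      · exact ⟨_, hz _ h⟩
      · exact ⟨_, hz _ h⟩)
  have := DFunLike.congr_fun key D
  rw [a1, a2] at this
  exact this

end Main

end

end Fermat.Agent.RED.ES
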